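import Fermat.Agent.LT.T7.H736.Core.Top
import Fermat.Agent.LT.T7.H675.BlocksU
import Fermat.Agent.LT.T7.H675.ClassModelU
import Fermat.Agent.LT.T7.H865.UpBasisU

/-!
# Row LT, tower T7, node T7.L2.2 `SpecUpC` (helper736, owner of record): THE GLUE BETWEEN THE THREE
# CORE RETYPINGS OF THE LEAVES

OFF-MAIN.  PROVED equivalences only; no new Prop.  No hole, nothing assumed.  ADDITIVE.

The leaves of the cut of `SpecUpC` (helper561: `BlocksC561`, `OpsC561`; helper616: `ClassModelC`)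
were retyped on the upstairs data `H29.UpData K'` three times, within a few minutes:

* `UB675` / `CMU675` (helper675, `T7/H675/BlocksU.lean` bb2d42fa, `ClassModelU.lean` 9a359011):
  **THE FORMS OF RECORD** (ruling of helper736, 16:48Z);
* `CU736` (helper736, `T7/H736/Core/*.lean`): textually the same statements;
* `H865` (helper865, `T7/H865/UpBasisU.lean` 6d8987b2): the same statements with the hypothesis
  `H29.BaseStableU U` (all the fields of `T5.AutPreserves` at the base level) in place of the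
  stability of the level group alone.

Here: for EVERY leaf `X`

    X_cu_r : CU736.X K' → XUC675 K'          X_r_cu : XUC675 K' → CU736.X K'
    X_r_d  : XUC675 K' → XUC865 K'           X_d_r  : XUC865 K' → XUC675 K'

(`cu` = helper736, `r` = of record = helper675, `d` = deputy = helper865), so a leaf proved in ANY
of the three forms feeds EVERY top (`UB675.upBasisUC_of675`, `H865.upBasisUC_of_leaves865`,
`CU736.specUpSC_of_leaves`).  The two hypotheses on the base level are equivalent for the data of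
`H29.IsUpData` (`baseStableU_of_level`: the other fields of `T5.AutPreserves` do not depend on the
level).
-/

set_option autoImplicit false
set_option linter.unusedVariables false

open AutomorphicForm IsDedekindDomain NumberField MeasureTheory
open scoped ComplexConjugate Matrix

noncomputable section

namespace Fermat.Agent.LT.T7.GL736

open Fermat.Agent.LT.H556 Fermat.Agent.LT.H556.A0 Fermat.Agent.LT.T7

attribute [local instance] Fermat.Agent.LT.T5.instMeasurableSpaceG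

/-! ## 1. The structures -/

section Structures

variable {K' : Type} [Field K'] [NumberField K']

theorem isClassBasis_cu_r {U : H29.UpData K'} {ℓ : ℕ} {C : EigData K'} {n : ℕ} {v : Fin n → G K' →
    ℂ} (h : CU736.IsClassBasis561 U ℓ C n v) : UB675.IsClassBasisU675 U ℓ C n v where
  eig := h.eig
  orth := h.orth
  span := h.span

theorem isBlocks_cu_r {ℓ : ℕ} {Φ : HeckeEigensystem K' ℂ} {U : H29.UpData K'} {g : G K'} {e₀ : ℕ → G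
    K' → ℂ} {𝔅 : H561.Blocks561 K'} (h : CU736.IsBlocks561 ℓ Φ U g e₀ 𝔅) : UB675.IsBlocksU675 ℓ Φ U
    g e₀ 𝔅 where
  onb := h.onb
  inj := h.inj
  unitary := h.unitary
  distinct := h.distinct
  basis := fun i => isClassBasis_cu_r (h.basis i)
  phi := h.phi
  iw := h.iw
  coeff := h.coeff
  off := h.off

theorem isWSpec_cu_r {U : H29.UpData K'} {ℓ : ℕ} {ι : Type} {n : ι → ℕ} {C : ι → EigData K'} {v : (i
    : ι) → Fin (n i) → G K' → ℂ} (h : CU736.IsWSpec561 U ℓ ι n C v) : UB675.IsWSpecU675 U ℓ ι n C v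
    where
  countable := h.countable
  unitary := h.unitary
  distinct := h.distinct
  basis := fun i => isClassBasis_cu_r (h.basis i)
  orth := h.orth
  complete := h.complete
  cover := h.cover

theorem isWOps_cu_r {U : H29.UpData K'} {ℓ : ℕ} {g : G K'} {Hs : ℕ → Finset (G K')} {ω : ℕ → G K'}
    {Hg : Finset (G K')} (h : CU736.IsWOps561 U ℓ g Hs ω Hg) : UB675.IsWOpsU675 U ℓ g Hs ω Hg where
  S_eig := h.S_eig
  ρ_eig := h.ρ_eig
  B_eig := h.B_eig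
  S_quad := h.S_quad
  ρ_central := h.ρ_central
  comm_SS := h.comm_SS
  comm_Sρ := h.comm_Sρ
  comm_ρρ := h.comm_ρρ
  per_S := h.per_S
  per_ρ := h.per_ρ
  B_S := h.B_S
  B_ρ := h.B_ρ
  S_adj := h.S_adj
  ρ_iso := h.ρ_iso
  σ_S := h.σ_S
  σ_ρ := h.σ_ρ
  dbl := h.dbl
  iwsys := h.iwsys
  unif := h.unif

theorem isIwSys_cu_r {U : H29.UpData K'} {Hs : ℕ → Finset (G K')} {ω : ℕ → G K'} (h :
    CU736.IsIwSys561 U Hs ω) : UB675.IsIwSysU675 U Hs ω where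
  ω_local := h.ω_local
  ω_comp := h.ω_comp
  Hs_card := h.Hs_card
  Hs_local := h.Hs_local
  Hs_comp := h.Hs_comp
  Hs_inj := h.Hs_inj

theorem isSetup_cu_r {ℓ : ℕ} {Φ : HeckeEigensystem K' ℂ} {U : H29.UpData K'} (h : CU736.IsSetup561 ℓ
    Φ U) : UB675.IsSetupU675 ℓ Φ U where
  prime := h.prime
  cplx := h.cplx
  cusp := h.cusp
  data := h.data

theorem isClassBasis_r_cu {U : H29.UpData K'} {ℓ : ℕ} {C : EigData K'} {n : ℕ} {v : Fin n → G K' →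
    ℂ} (h : UB675.IsClassBasisU675 U ℓ C n v) : CU736.IsClassBasis561 U ℓ C n v where
  eig := h.eig
  orth := h.orth
  span := h.span

theorem isBlocks_r_cu {ℓ : ℕ} {Φ : HeckeEigensystem K' ℂ} {U : H29.UpData K'} {g : G K'} {e₀ : ℕ → G
    K' → ℂ} {𝔅 : H561.Blocks561 K'} (h : UB675.IsBlocksU675 ℓ Φ U g e₀ 𝔅) : CU736.IsBlocks561 ℓ Φ U
    g e₀ 𝔅 where
  onb := h.onb
  inj := h.inj
  unitary := h.unitary
  distinct := h.distinct
  basis := fun i => isClassBasis_r_cu (h.basis i)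
  phi := h.phi
  iw := h.iw
  coeff := h.coeff
  off := h.off

theorem isWSpec_r_cu {U : H29.UpData K'} {ℓ : ℕ} {ι : Type} {n : ι → ℕ} {C : ι → EigData K'} {v : (i
    : ι) → Fin (n i) → G K' → ℂ} (h : UB675.IsWSpecU675 U ℓ ι n C v) : CU736.IsWSpec561 U ℓ ι n C v
    where
  countable := h.countable
  unitary := h.unitary
  distinct := h.distinct
  basis := fun i => isClassBasis_r_cu (h.basis i)
  orth := h.orth
  complete := h.complete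
  cover := h.cover

theorem isWOps_r_cu {U : H29.UpData K'} {ℓ : ℕ} {g : G K'} {Hs : ℕ → Finset (G K')} {ω : ℕ → G K'}
    {Hg : Finset (G K')} (h : UB675.IsWOpsU675 U ℓ g Hs ω Hg) : CU736.IsWOps561 U ℓ g Hs ω Hg where
  S_eig := h.S_eig
  ρ_eig := h.ρ_eig
  B_eig := h.B_eig
  S_quad := h.S_quad
  ρ_central := h.ρ_central
  comm_SS := h.comm_SS
  comm_Sρ := h.comm_Sρ
  comm_ρρ := h.comm_ρρ
  per_S := h.per_S
  per_ρ := h.per_ρ
  B_S := h.B_S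
  B_ρ := h.B_ρ
  S_adj := h.S_adj
  ρ_iso := h.ρ_iso
  σ_S := h.σ_S
  σ_ρ := h.σ_ρ
  dbl := h.dbl
  iwsys := h.iwsys
  unif := h.unif

theorem isIwSys_r_cu {U : H29.UpData K'} {Hs : ℕ → Finset (G K')} {ω : ℕ → G K'} (h :
    UB675.IsIwSysU675 U Hs ω) : CU736.IsIwSys561 U Hs ω where
  ω_local := h.ω_local
  ω_comp := h.ω_comp
  Hs_card := h.Hs_card
  Hs_local := h.Hs_local
  Hs_comp := h.Hs_comp
  Hs_inj := h.Hs_inj

theorem isSetup_r_cu {ℓ : ℕ} {Φ : HeckeEigensystem K' ℂ} {U : H29.UpData K'} (h : UB675.IsSetupU675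
    ℓ Φ U) : CU736.IsSetup561 ℓ Φ U where
  prime := h.prime
  cplx := h.cplx
  cusp := h.cusp
  data := h.data

theorem isClassBasis_r_d {U : H29.UpData K'} {ℓ : ℕ} {C : EigData K'} {n : ℕ} {v : Fin n → G K' → ℂ}
    (h : UB675.IsClassBasisU675 U ℓ C n v) : H865.IsClassBasisU865 U ℓ C n v where
  eig := h.eig
  orth := h.orth
  span := h.span

theorem isBlocks_r_d {ℓ : ℕ} {Φ : HeckeEigensystem K' ℂ} {U : H29.UpData K'} {g : G K'} {e₀ : ℕ → G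
    K' → ℂ} {𝔅 : H561.Blocks561 K'} (h : UB675.IsBlocksU675 ℓ Φ U g e₀ 𝔅) : H865.IsBlocksU865 ℓ Φ U
    g e₀ 𝔅 where
  onb := h.onb
  inj := h.inj
  unitary := h.unitary
  distinct := h.distinct
  basis := fun i => isClassBasis_r_d (h.basis i)
  phi := h.phi
  iw := h.iw
  coeff := h.coeff
  off := h.off

theorem isWSpec_r_d {U : H29.UpData K'} {ℓ : ℕ} {ι : Type} {n : ι → ℕ} {C : ι → EigData K'} {v : (i
    : ι) → Fin (n i) → G K' → ℂ} (h : UB675.IsWSpecU675 U ℓ ι n C v) : H865.IsWSpecU865 U ℓ ι n C v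
    where
  countable := h.countable
  unitary := h.unitary
  distinct := h.distinct
  basis := fun i => isClassBasis_r_d (h.basis i)
  orth := h.orth
  complete := h.complete
  cover := h.cover

theorem isWOps_r_d {U : H29.UpData K'} {ℓ : ℕ} {g : G K'} {Hs : ℕ → Finset (G K')} {ω : ℕ → G K'}
    {Hg : Finset (G K')} (h : UB675.IsWOpsU675 U ℓ g Hs ω Hg) : H865.IsWOpsU865 U ℓ g Hs ω Hg where
  S_eig := h.S_eig
  ρ_eig := h.ρ_eig
  B_eig := h.B_eig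
  S_quad := h.S_quad
  ρ_central := h.ρ_central
  comm_SS := h.comm_SS
  comm_Sρ := h.comm_Sρ
  comm_ρρ := h.comm_ρρ
  per_S := h.per_S
  per_ρ := h.per_ρ
  B_S := h.B_S
  B_ρ := h.B_ρ
  S_adj := h.S_adj
  ρ_iso := h.ρ_iso
  σ_S := h.σ_S
  σ_ρ := h.σ_ρ
  dbl := h.dbl
  iwsys := h.iwsys
  unif := h.unif

theorem isIwSys_r_d {U : H29.UpData K'} {Hs : ℕ → Finset (G K')} {ω : ℕ → G K'} (h :
    UB675.IsIwSysU675 U Hs ω) : H865.IsIwSysU865 U Hs ω where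
  ω_local := h.ω_local
  ω_comp := h.ω_comp
  Hs_card := h.Hs_card
  Hs_local := h.Hs_local
  Hs_comp := h.Hs_comp
  Hs_inj := h.Hs_inj

theorem isSetup_r_d {ℓ : ℕ} {Φ : HeckeEigensystem K' ℂ} {U : H29.UpData K'} (h : UB675.IsSetupU675 ℓ
    Φ U) : H865.IsSetupU865 ℓ Φ U where
  prime := h.prime
  cplx := h.cplx
  cusp := h.cusp
  data := h.data

theorem isClassBasis_d_r {U : H29.UpData K'} {ℓ : ℕ} {C : EigData K'} {n : ℕ} {v : Fin n → G K' → ℂ}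
    (h : H865.IsClassBasisU865 U ℓ C n v) : UB675.IsClassBasisU675 U ℓ C n v where
  eig := h.eig
  orth := h.orth
  span := h.span

theorem isBlocks_d_r {ℓ : ℕ} {Φ : HeckeEigensystem K' ℂ} {U : H29.UpData K'} {g : G K'} {e₀ : ℕ → G
    K' → ℂ} {𝔅 : H561.Blocks561 K'} (h : H865.IsBlocksU865 ℓ Φ U g e₀ 𝔅) : UB675.IsBlocksU675 ℓ Φ U
    g e₀ 𝔅 where
  onb := h.onb
  inj := h.inj
  unitary := h.unitary
  distinct := h.distinct
  basis := fun i => isClassBasis_d_r (h.basis i)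
  phi := h.phi
  iw := h.iw
  coeff := h.coeff
  off := h.off

theorem isWSpec_d_r {U : H29.UpData K'} {ℓ : ℕ} {ι : Type} {n : ι → ℕ} {C : ι → EigData K'} {v : (i
    : ι) → Fin (n i) → G K' → ℂ} (h : H865.IsWSpecU865 U ℓ ι n C v) : UB675.IsWSpecU675 U ℓ ι n C v
    where
  countable := h.countable
  unitary := h.unitary
  distinct := h.distinct
  basis := fun i => isClassBasis_d_r (h.basis i)
  orth := h.orth
  complete := h.complete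
  cover := h.cover

theorem isWOps_d_r {U : H29.UpData K'} {ℓ : ℕ} {g : G K'} {Hs : ℕ → Finset (G K')} {ω : ℕ → G K'}
    {Hg : Finset (G K')} (h : H865.IsWOpsU865 U ℓ g Hs ω Hg) : UB675.IsWOpsU675 U ℓ g Hs ω Hg where
  S_eig := h.S_eig
  ρ_eig := h.ρ_eig
  B_eig := h.B_eig
  S_quad := h.S_quad
  ρ_central := h.ρ_central
  comm_SS := h.comm_SS
  comm_Sρ := h.comm_Sρ
  comm_ρρ := h.comm_ρρ
  per_S := h.per_S
  per_ρ := h.per_ρ
  B_S := h.B_S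
  B_ρ := h.B_ρ
  S_adj := h.S_adj
  ρ_iso := h.ρ_iso
  σ_S := h.σ_S
  σ_ρ := h.σ_ρ
  dbl := h.dbl
  iwsys := h.iwsys
  unif := h.unif

theorem isIwSys_d_r {U : H29.UpData K'} {Hs : ℕ → Finset (G K')} {ω : ℕ → G K'} (h :
    H865.IsIwSysU865 U Hs ω) : UB675.IsIwSysU675 U Hs ω where
  ω_local := h.ω_local
  ω_comp := h.ω_comp
  Hs_card := h.Hs_card
  Hs_local := h.Hs_local
  Hs_comp := h.Hs_comp
  Hs_inj := h.Hs_inj

theorem isSetup_d_r {ℓ : ℕ} {Φ : HeckeEigensystem K' ℂ} {U : H29.UpData K'} (h : H865.IsSetupU865 ℓ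
    Φ U) : UB675.IsSetupU675 ℓ Φ U where
  prime := h.prime
  cplx := h.cplx
  cusp := h.cusp
  data := h.data

end Structures

/-! ## 2. Base stability -/

section Stable

variable {K' : Type} [Field K'] [NumberField K']

/-- The identity is supported at the bad places. -/
theorem isBad_one_glue (U : H29.UpData K') : U.IsBad (1 : G K') :=
  ⟨fun w => H29.trivAtInf_one29 w, fun v _ => H29.trivAtFin_one29 v⟩

/-- **Level-stability of the base level gives `H29.BaseStableU`**: the other fields of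
`T5.AutPreserves` do not depend on the level (take them at the level of the bad element `1`). -/
theorem baseStableU_of_level {ℓ : ℕ} {Φ : HeckeEigensystem K' ℂ} {U : H29.UpData K'}
    (hU : H29.IsUpData ℓ Φ U)
    (h : ∀ u : G K', InLevelGroup U.𝔑₀ u ↔ InLevelGroup U.𝔑₀ (U.s.onG u)) :
    H29.BaseStableU U where
  left_inverse := (hU.aut 1 (isBad_one_glue U)).left_inverse
  right_inverse := (hU.aut 1 (isBad_one_glue U)).right_inverse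
  rat := (hU.aut 1 (isBad_one_glue U)).rat
  cont := (hU.aut 1 (isBad_one_glue U)).cont
  measure := (hU.aut 1 (isBad_one_glue U)).measure
  ray := (hU.aut 1 (isBad_one_glue U)).ray
  slab := (hU.aut 1 (isBad_one_glue U)).slab
  level := h
  arch := (hU.aut 1 (isBad_one_glue U)).arch

theorem hst_cu_r {ℓ : ℕ} {Φ : HeckeEigensystem K' ℂ} {U : H29.UpData K'} (hU : H29.IsUpData ℓ Φ U)
    (h : CU736.BaseStable561 U) : UB675.BaseStableU675 U :=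
  h

theorem hst_r_cu {ℓ : ℕ} {Φ : HeckeEigensystem K' ℂ} {U : H29.UpData K'} (hU : H29.IsUpData ℓ Φ U)
    (h : UB675.BaseStableU675 U) : CU736.BaseStable561 U :=
  h

theorem hst_r_d {ℓ : ℕ} {Φ : HeckeEigensystem K' ℂ} {U : H29.UpData K'} (hU : H29.IsUpData ℓ Φ U) (h
    : UB675.BaseStableU675 U) : H29.BaseStableU U :=
  baseStableU_of_level hU h

theorem hst_d_r {ℓ : ℕ} {Φ : HeckeEigensystem K' ℂ} {U : H29.UpData K'} (hU : H29.IsUpData ℓ Φ U) (h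
    : H29.BaseStableU U) : UB675.BaseStableU675 U :=
  h.level

end Stable

/-! ## 3. The leaves of the cut of `BlocksC561` / `OpsC561` -/

section Leaves

variable {K' : Type} [Field K'] [NumberField K']

theorem blocks_cu_r (h : CU736.BlocksC561 K') : UB675.BlocksUC675 K' := by
  intro ℓ hℓ hc Φ hΦ U hU hst g hg
  obtain ⟨e₀, 𝔅, hB⟩ := h ℓ hℓ hc Φ hΦ U hU (hst_r_cu hU hst) g hg
  exact ⟨e₀, 𝔅, isBlocks_cu_r hB⟩

theorem wSpec_cu_r (h : CU736.WSpecC561 K') : UB675.WSpecUC675 K' := by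
  intro ℓ hℓ hc Φ hΦ U hU
  obtain ⟨ι, n, C, v, hv⟩ := h ℓ hℓ hc Φ hΦ U hU
  exact ⟨ι, n, C, v, isWSpec_cu_r hv⟩

theorem complete_cu_r (h : CU736.CompleteC561 K') : UB675.CompleteUC675 K' :=
  fun ℓ hℓ hc Φ hΦ U hU g hg ι n C v hv =>
    h ℓ hℓ hc Φ hΦ U hU g hg ι n C v (isWSpec_r_cu hv)

theorem sigma_cu_r (h : CU736.SigmaC561 K') : UB675.SigmaUC675 K' :=
  fun ℓ hℓ hc Φ hΦ U hU hst => h ℓ hℓ hc Φ hΦ U hU (hst_r_cu hU hst)

theorem ops_cu_r (h : CU736.OpsC561 K') : UB675.OpsUC675 K' := by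
  intro ℓ hℓ hc Φ hΦ U hU hst g hg
  obtain ⟨Hs, ω, Hg, hO⟩ := h ℓ hℓ hc Φ hΦ U hU (hst_r_cu hU hst) g hg
  exact ⟨Hs, ω, Hg, isWOps_cu_r hO⟩

theorem phi_cu_r (h : CU736.PhiC561 K') : UB675.PhiUC675 K' :=
  fun ℓ hℓ hc Φ hΦ U hU => h ℓ hℓ hc Φ hΦ U hU

theorem offW_cu_r (h : CU736.OffWC561 K') : UB675.OffWUC675 K' :=
  fun ℓ hℓ hc Φ hΦ U hU g hg ι n C v hv =>
    h ℓ hℓ hc Φ hΦ U hU g hg ι n C v (isWSpec_r_cu hv)

theorem iwSysExists_cu_r (h : CU736.IwSysExistsC561 K') : UB675.IwSysExistsUC675 K' := by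
  intro ℓ Φ U hs
  obtain ⟨Hs, ω, hsys⟩ := h ℓ Φ U (isSetup_r_cu hs)
  exact ⟨Hs, ω, isIwSys_cu_r hsys⟩

theorem opsEig_cu_r (h : CU736.OpsEigC561 K') : UB675.OpsEigUC675 K' :=
  fun ℓ Φ U hs Hs ω hsys => h ℓ Φ U (isSetup_r_cu hs) Hs ω (isIwSys_r_cu hsys)

theorem opsRel_cu_r (h : CU736.OpsRelC561 K') : UB675.OpsRelUC675 K' :=
  fun ℓ Φ U hs Hs ω hsys => h ℓ Φ U (isSetup_r_cu hs) Hs ω (isIwSys_r_cu hsys)

theorem opsComm_cu_r (h : CU736.OpsCommC561 K') : UB675.OpsCommUC675 K' :=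
  fun ℓ Φ U hs Hs ω hsys => h ℓ Φ U (isSetup_r_cu hs) Hs ω (isIwSys_r_cu hsys)

theorem opsPer_cu_r (h : CU736.OpsPerC561 K') : UB675.OpsPerUC675 K' :=
  fun ℓ Φ U hs Hs ω hsys => h ℓ Φ U (isSetup_r_cu hs) Hs ω (isIwSys_r_cu hsys)

theorem opsAdj_cu_r (h : CU736.OpsAdjC561 K') : UB675.OpsAdjUC675 K' :=
  fun ℓ Φ U hs Hs ω hsys => h ℓ Φ U (isSetup_r_cu hs) Hs ω (isIwSys_r_cu hsys)

theorem opsLink_cu_r (h : CU736.OpsLinkC561 K') : UB675.OpsLinkUC675 K' :=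
  fun ℓ Φ U hs Hs ω hsys => h ℓ Φ U (isSetup_r_cu hs) Hs ω (isIwSys_r_cu hsys)

theorem opsSig_cu_r (h : CU736.OpsSigC561 K') : UB675.OpsSigUC675 K' :=
  fun ℓ Φ U hs hst Hs ω hsys =>
    h ℓ Φ U (isSetup_r_cu hs) (hst_r_cu hs.data hst) Hs ω (isIwSys_r_cu hsys)

theorem badOp_cu_r (h : CU736.BadOpC561 K') : UB675.BadOpUC675 K' := by
  intro ℓ Φ U hs g hg
  obtain ⟨Hg, hdbl, hB, hcomm⟩ := h ℓ Φ U (isSetup_r_cu hs) g hg
  exact ⟨Hg, hdbl, hB, fun Hs ω hsys => hcomm Hs ω (isIwSys_r_cu hsys)⟩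

theorem blocks_r_cu (h : UB675.BlocksUC675 K') : CU736.BlocksC561 K' := by
  intro ℓ hℓ hc Φ hΦ U hU hst g hg
  obtain ⟨e₀, 𝔅, hB⟩ := h ℓ hℓ hc Φ hΦ U hU (hst_cu_r hU hst) g hg
  exact ⟨e₀, 𝔅, isBlocks_r_cu hB⟩

theorem wSpec_r_cu (h : UB675.WSpecUC675 K') : CU736.WSpecC561 K' := by
  intro ℓ hℓ hc Φ hΦ U hU
  obtain ⟨ι, n, C, v, hv⟩ := h ℓ hℓ hc Φ hΦ U hU
  exact ⟨ι, n, C, v, isWSpec_r_cu hv⟩

theorem complete_r_cu (h : UB675.CompleteUC675 K') : CU736.CompleteC561 K' :=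
  fun ℓ hℓ hc Φ hΦ U hU g hg ι n C v hv =>
    h ℓ hℓ hc Φ hΦ U hU g hg ι n C v (isWSpec_cu_r hv)

theorem sigma_r_cu (h : UB675.SigmaUC675 K') : CU736.SigmaC561 K' :=
  fun ℓ hℓ hc Φ hΦ U hU hst => h ℓ hℓ hc Φ hΦ U hU (hst_cu_r hU hst)

theorem ops_r_cu (h : UB675.OpsUC675 K') : CU736.OpsC561 K' := by
  intro ℓ hℓ hc Φ hΦ U hU hst g hg
  obtain ⟨Hs, ω, Hg, hO⟩ := h ℓ hℓ hc Φ hΦ U hU (hst_cu_r hU hst) g hg
  exact ⟨Hs, ω, Hg, isWOps_r_cu hO⟩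

theorem phi_r_cu (h : UB675.PhiUC675 K') : CU736.PhiC561 K' :=
  fun ℓ hℓ hc Φ hΦ U hU => h ℓ hℓ hc Φ hΦ U hU

theorem offW_r_cu (h : UB675.OffWUC675 K') : CU736.OffWC561 K' :=
  fun ℓ hℓ hc Φ hΦ U hU g hg ι n C v hv =>
    h ℓ hℓ hc Φ hΦ U hU g hg ι n C v (isWSpec_cu_r hv)

theorem iwSysExists_r_cu (h : UB675.IwSysExistsUC675 K') : CU736.IwSysExistsC561 K' := by
  intro ℓ Φ U hs
  obtain ⟨Hs, ω, hsys⟩ := h ℓ Φ U (isSetup_cu_r hs)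
  exact ⟨Hs, ω, isIwSys_r_cu hsys⟩

theorem opsEig_r_cu (h : UB675.OpsEigUC675 K') : CU736.OpsEigC561 K' :=
  fun ℓ Φ U hs Hs ω hsys => h ℓ Φ U (isSetup_cu_r hs) Hs ω (isIwSys_cu_r hsys)

theorem opsRel_r_cu (h : UB675.OpsRelUC675 K') : CU736.OpsRelC561 K' :=
  fun ℓ Φ U hs Hs ω hsys => h ℓ Φ U (isSetup_cu_r hs) Hs ω (isIwSys_cu_r hsys)

theorem opsComm_r_cu (h : UB675.OpsCommUC675 K') : CU736.OpsCommC561 K' :=
  fun ℓ Φ U hs Hs ω hsys => h ℓ Φ U (isSetup_cu_r hs) Hs ω (isIwSys_cu_r hsys)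

theorem opsPer_r_cu (h : UB675.OpsPerUC675 K') : CU736.OpsPerC561 K' :=
  fun ℓ Φ U hs Hs ω hsys => h ℓ Φ U (isSetup_cu_r hs) Hs ω (isIwSys_cu_r hsys)

theorem opsAdj_r_cu (h : UB675.OpsAdjUC675 K') : CU736.OpsAdjC561 K' :=
  fun ℓ Φ U hs Hs ω hsys => h ℓ Φ U (isSetup_cu_r hs) Hs ω (isIwSys_cu_r hsys)

theorem opsLink_r_cu (h : UB675.OpsLinkUC675 K') : CU736.OpsLinkC561 K' :=
  fun ℓ Φ U hs Hs ω hsys => h ℓ Φ U (isSetup_cu_r hs) Hs ω (isIwSys_cu_r hsys)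

theorem opsSig_r_cu (h : UB675.OpsSigUC675 K') : CU736.OpsSigC561 K' :=
  fun ℓ Φ U hs hst Hs ω hsys =>
    h ℓ Φ U (isSetup_cu_r hs) (hst_cu_r hs.data hst) Hs ω (isIwSys_cu_r hsys)

theorem badOp_r_cu (h : UB675.BadOpUC675 K') : CU736.BadOpC561 K' := by
  intro ℓ Φ U hs g hg
  obtain ⟨Hg, hdbl, hB, hcomm⟩ := h ℓ Φ U (isSetup_cu_r hs) g hg
  exact ⟨Hg, hdbl, hB, fun Hs ω hsys => hcomm Hs ω (isIwSys_cu_r hsys)⟩

theorem blocks_r_d (h : UB675.BlocksUC675 K') : H865.BlocksUC865 K' := by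
  intro ℓ hℓ hc Φ hΦ U hU hst g hg
  obtain ⟨e₀, 𝔅, hB⟩ := h ℓ hℓ hc Φ hΦ U hU (hst_d_r hU hst) g hg
  exact ⟨e₀, 𝔅, isBlocks_r_d hB⟩

theorem wSpec_r_d (h : UB675.WSpecUC675 K') : H865.WSpecUC865 K' := by
  intro ℓ hℓ hc Φ hΦ U hU
  obtain ⟨ι, n, C, v, hv⟩ := h ℓ hℓ hc Φ hΦ U hU
  exact ⟨ι, n, C, v, isWSpec_r_d hv⟩

theorem complete_r_d (h : UB675.CompleteUC675 K') : H865.CompleteUC865 K' :=
  fun ℓ hℓ hc Φ hΦ U hU g hg ι n C v hv =>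
    h ℓ hℓ hc Φ hΦ U hU g hg ι n C v (isWSpec_d_r hv)

theorem sigma_r_d (h : UB675.SigmaUC675 K') : H865.SigmaUC865 K' :=
  fun ℓ hℓ hc Φ hΦ U hU hst => h ℓ hℓ hc Φ hΦ U hU (hst_d_r hU hst)

theorem ops_r_d (h : UB675.OpsUC675 K') : H865.OpsUC865 K' := by
  intro ℓ hℓ hc Φ hΦ U hU hst g hg
  obtain ⟨Hs, ω, Hg, hO⟩ := h ℓ hℓ hc Φ hΦ U hU (hst_d_r hU hst) g hg
  exact ⟨Hs, ω, Hg, isWOps_r_d hO⟩

theorem phi_r_d (h : UB675.PhiUC675 K') : H865.PhiUC865 K' :=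
  fun ℓ hℓ hc Φ hΦ U hU => h ℓ hℓ hc Φ hΦ U hU

theorem offW_r_d (h : UB675.OffWUC675 K') : H865.OffWUC865 K' :=
  fun ℓ hℓ hc Φ hΦ U hU g hg ι n C v hv =>
    h ℓ hℓ hc Φ hΦ U hU g hg ι n C v (isWSpec_d_r hv)

theorem iwSysExists_r_d (h : UB675.IwSysExistsUC675 K') : H865.IwSysExistsUC865 K' := by
  intro ℓ Φ U hs
  obtain ⟨Hs, ω, hsys⟩ := h ℓ Φ U (isSetup_d_r hs)
  exact ⟨Hs, ω, isIwSys_r_d hsys⟩

theorem opsEig_r_d (h : UB675.OpsEigUC675 K') : H865.OpsEigUC865 K' :=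
  fun ℓ Φ U hs Hs ω hsys => h ℓ Φ U (isSetup_d_r hs) Hs ω (isIwSys_d_r hsys)

theorem opsRel_r_d (h : UB675.OpsRelUC675 K') : H865.OpsRelUC865 K' :=
  fun ℓ Φ U hs Hs ω hsys => h ℓ Φ U (isSetup_d_r hs) Hs ω (isIwSys_d_r hsys)

theorem opsComm_r_d (h : UB675.OpsCommUC675 K') : H865.OpsCommUC865 K' :=
  fun ℓ Φ U hs Hs ω hsys => h ℓ Φ U (isSetup_d_r hs) Hs ω (isIwSys_d_r hsys)

theorem opsPer_r_d (h : UB675.OpsPerUC675 K') : H865.OpsPerUC865 K' :=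
  fun ℓ Φ U hs Hs ω hsys => h ℓ Φ U (isSetup_d_r hs) Hs ω (isIwSys_d_r hsys)

theorem opsAdj_r_d (h : UB675.OpsAdjUC675 K') : H865.OpsAdjUC865 K' :=
  fun ℓ Φ U hs Hs ω hsys => h ℓ Φ U (isSetup_d_r hs) Hs ω (isIwSys_d_r hsys)

theorem opsLink_r_d (h : UB675.OpsLinkUC675 K') : H865.OpsLinkUC865 K' :=
  fun ℓ Φ U hs Hs ω hsys => h ℓ Φ U (isSetup_d_r hs) Hs ω (isIwSys_d_r hsys)

theorem opsSig_r_d (h : UB675.OpsSigUC675 K') : H865.OpsSigUC865 K' :=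
  fun ℓ Φ U hs hst Hs ω hsys =>
    h ℓ Φ U (isSetup_d_r hs) (hst_d_r hs.data hst) Hs ω (isIwSys_d_r hsys)

theorem badOp_r_d (h : UB675.BadOpUC675 K') : H865.BadOpUC865 K' := by
  intro ℓ Φ U hs g hg
  obtain ⟨Hg, hdbl, hB, hcomm⟩ := h ℓ Φ U (isSetup_d_r hs) g hg
  exact ⟨Hg, hdbl, hB, fun Hs ω hsys => hcomm Hs ω (isIwSys_d_r hsys)⟩

theorem blocks_d_r (h : H865.BlocksUC865 K') : UB675.BlocksUC675 K' := by
  intro ℓ hℓ hc Φ hΦ U hU hst g hg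
  obtain ⟨e₀, 𝔅, hB⟩ := h ℓ hℓ hc Φ hΦ U hU (hst_r_d hU hst) g hg
  exact ⟨e₀, 𝔅, isBlocks_d_r hB⟩

theorem wSpec_d_r (h : H865.WSpecUC865 K') : UB675.WSpecUC675 K' := by
  intro ℓ hℓ hc Φ hΦ U hU
  obtain ⟨ι, n, C, v, hv⟩ := h ℓ hℓ hc Φ hΦ U hU
  exact ⟨ι, n, C, v, isWSpec_d_r hv⟩

theorem complete_d_r (h : H865.CompleteUC865 K') : UB675.CompleteUC675 K' :=
  fun ℓ hℓ hc Φ hΦ U hU g hg ι n C v hv =>
    h ℓ hℓ hc Φ hΦ U hU g hg ι n C v (isWSpec_r_d hv)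

theorem sigma_d_r (h : H865.SigmaUC865 K') : UB675.SigmaUC675 K' :=
  fun ℓ hℓ hc Φ hΦ U hU hst => h ℓ hℓ hc Φ hΦ U hU (hst_r_d hU hst)

theorem ops_d_r (h : H865.OpsUC865 K') : UB675.OpsUC675 K' := by
  intro ℓ hℓ hc Φ hΦ U hU hst g hg
  obtain ⟨Hs, ω, Hg, hO⟩ := h ℓ hℓ hc Φ hΦ U hU (hst_r_d hU hst) g hg
  exact ⟨Hs, ω, Hg, isWOps_d_r hO⟩

theorem phi_d_r (h : H865.PhiUC865 K') : UB675.PhiUC675 K' :=
  fun ℓ hℓ hc Φ hΦ U hU => h ℓ hℓ hc Φ hΦ U hU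

theorem offW_d_r (h : H865.OffWUC865 K') : UB675.OffWUC675 K' :=
  fun ℓ hℓ hc Φ hΦ U hU g hg ι n C v hv =>
    h ℓ hℓ hc Φ hΦ U hU g hg ι n C v (isWSpec_r_d hv)

theorem iwSysExists_d_r (h : H865.IwSysExistsUC865 K') : UB675.IwSysExistsUC675 K' := by
  intro ℓ Φ U hs
  obtain ⟨Hs, ω, hsys⟩ := h ℓ Φ U (isSetup_r_d hs)
  exact ⟨Hs, ω, isIwSys_d_r hsys⟩

theorem opsEig_d_r (h : H865.OpsEigUC865 K') : UB675.OpsEigUC675 K' :=
  fun ℓ Φ U hs Hs ω hsys => h ℓ Φ U (isSetup_r_d hs) Hs ω (isIwSys_r_d hsys)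

theorem opsRel_d_r (h : H865.OpsRelUC865 K') : UB675.OpsRelUC675 K' :=
  fun ℓ Φ U hs Hs ω hsys => h ℓ Φ U (isSetup_r_d hs) Hs ω (isIwSys_r_d hsys)

theorem opsComm_d_r (h : H865.OpsCommUC865 K') : UB675.OpsCommUC675 K' :=
  fun ℓ Φ U hs Hs ω hsys => h ℓ Φ U (isSetup_r_d hs) Hs ω (isIwSys_r_d hsys)

theorem opsPer_d_r (h : H865.OpsPerUC865 K') : UB675.OpsPerUC675 K' :=
  fun ℓ Φ U hs Hs ω hsys => h ℓ Φ U (isSetup_r_d hs) Hs ω (isIwSys_r_d hsys)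

theorem opsAdj_d_r (h : H865.OpsAdjUC865 K') : UB675.OpsAdjUC675 K' :=
  fun ℓ Φ U hs Hs ω hsys => h ℓ Φ U (isSetup_r_d hs) Hs ω (isIwSys_r_d hsys)

theorem opsLink_d_r (h : H865.OpsLinkUC865 K') : UB675.OpsLinkUC675 K' :=
  fun ℓ Φ U hs Hs ω hsys => h ℓ Φ U (isSetup_r_d hs) Hs ω (isIwSys_r_d hsys)

theorem opsSig_d_r (h : H865.OpsSigUC865 K') : UB675.OpsSigUC675 K' :=
  fun ℓ Φ U hs hst Hs ω hsys =>
    h ℓ Φ U (isSetup_r_d hs) (hst_r_d hs.data hst) Hs ω (isIwSys_r_d hsys)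

theorem badOp_d_r (h : H865.BadOpUC865 K') : UB675.BadOpUC675 K' := by
  intro ℓ Φ U hs g hg
  obtain ⟨Hg, hdbl, hB, hcomm⟩ := h ℓ Φ U (isSetup_r_d hs) g hg
  exact ⟨Hg, hdbl, hB, fun Hs ω hsys => hcomm Hs ω (isIwSys_r_d hsys)⟩

theorem blocksAsm_cu_r (h : CU736.BlocksAsmC561 K') : UB675.BlocksAsmUC675 K' :=
  fun hW hC hS hO hP hF => blocks_cu_r (h (wSpec_r_cu hW) (complete_r_cu hC) (sigma_r_cu hS)
    (ops_r_cu hO) (phi_r_cu hP) (offW_r_cu hF))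

theorem blocksAsm_r_cu (h : UB675.BlocksAsmUC675 K') : CU736.BlocksAsmC561 K' :=
  fun hW hC hS hO hP hF => blocks_r_cu (h (wSpec_cu_r hW) (complete_cu_r hC) (sigma_cu_r hS)
    (ops_cu_r hO) (phi_cu_r hP) (offW_cu_r hF))

theorem blocksAsm_r_d (h : UB675.BlocksAsmUC675 K') : H865.BlocksAsmUC865 K' :=
  fun hW hC hS hO hP hF => blocks_r_d (h (wSpec_d_r hW) (complete_d_r hC) (sigma_d_r hS)
    (ops_d_r hO) (phi_d_r hP) (offW_d_r hF))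

theorem blocksAsm_d_r (h : H865.BlocksAsmUC865 K') : UB675.BlocksAsmUC675 K' :=
  fun hW hC hS hO hP hF => blocks_d_r (h (wSpec_r_d hW) (complete_r_d hC) (sigma_r_d hS)
    (ops_r_d hO) (phi_r_d hP) (offW_r_d hF))

end Leaves

/-! ## 4. The leaves of the cut of `ClassModelC` -/

section ClassModel

variable {K' : Type} [Field K'] [NumberField K']

theorem ctx_cu_r {ℓ : ℕ} {Φ : HeckeEigensystem K' ℂ} {U : H29.UpData K'}
    (h : CU736.Ctx616 K' ℓ Φ U) : CMU675.CtxU675 K' ℓ Φ U where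
  prime := h.prime
  cplx := h.cplx
  cusp := h.cusp
  data := h.data
  stable := h.stable

theorem ctx_r_cu {ℓ : ℕ} {Φ : HeckeEigensystem K' ℂ} {U : H29.UpData K'}
    (h : CMU675.CtxU675 K' ℓ Φ U) : CU736.Ctx616 K' ℓ Φ U where
  prime := h.prime
  cplx := h.cplx
  cusp := h.cusp
  data := h.data
  stable := h.stable

theorem finDim_cu_r (h : CU736.FinDimC616 K') : CMU675.FinDimUC675 K' :=
  fun ℓ Φ U ctx => h ℓ Φ U (ctx_r_cu ctx)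

theorem finDim_r_cu (h : CMU675.FinDimUC675 K') : CU736.FinDimC616 K' :=
  fun ℓ Φ U ctx => h ℓ Φ U (ctx_cu_r ctx)

theorem nontriv_cu_r (h : CU736.NontrivC616 K') : CMU675.NontrivUC675 K' :=
  fun ℓ Φ U ctx => h ℓ Φ U (ctx_r_cu ctx)

theorem nontriv_r_cu (h : CMU675.NontrivUC675 K') : CU736.NontrivC616 K' :=
  fun ℓ Φ U ctx => h ℓ Φ U (ctx_cu_r ctx)

theorem stabG_cu_r (h : CU736.StabGC616 K') : CMU675.StabGUC675 K' :=
  fun ℓ Φ U ctx => h ℓ Φ U (ctx_r_cu ctx)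

theorem stabG_r_cu (h : CMU675.StabGUC675 K') : CU736.StabGC616 K' :=
  fun ℓ Φ U ctx => h ℓ Φ U (ctx_cu_r ctx)

theorem stabS_cu_r (h : CU736.StabSC616 K') : CMU675.StabSUC675 K' :=
  fun ℓ Φ U ctx => h ℓ Φ U (ctx_r_cu ctx)

theorem stabS_r_cu (h : CMU675.StabSUC675 K') : CU736.StabSC616 K' :=
  fun ℓ Φ U ctx => h ℓ Φ U (ctx_cu_r ctx)

theorem commGI_cu_r (h : CU736.CommGIC616 K') : CMU675.CommGIUC675 K' :=
  fun ℓ Φ U ctx => h ℓ Φ U (ctx_r_cu ctx)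

theorem commGI_r_cu (h : CMU675.CommGIUC675 K') : CU736.CommGIC616 K' :=
  fun ℓ Φ U ctx => h ℓ Φ U (ctx_cu_r ctx)

theorem locComm_cu_r (h : CU736.LocCommC616 K') : CMU675.LocCommUC675 K' :=
  fun ℓ Φ U ctx => h ℓ Φ U (ctx_r_cu ctx)

theorem locComm_r_cu (h : CMU675.LocCommUC675 K') : CU736.LocCommC616 K' :=
  fun ℓ Φ U ctx => h ℓ Φ U (ctx_cu_r ctx)

theorem locMove_cu_r (h : CU736.LocMoveC616 K') : CMU675.LocMoveUC675 K' :=
  fun ℓ Φ U ctx => h ℓ Φ U (ctx_r_cu ctx)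

theorem locMove_r_cu (h : CMU675.LocMoveUC675 K') : CU736.LocMoveC616 K' :=
  fun ℓ Φ U ctx => h ℓ Φ U (ctx_cu_r ctx)

theorem pow_cu_r (h : CU736.PowC616 K') : CMU675.PowUC675 K' :=
  fun ℓ Φ U ctx => h ℓ Φ U (ctx_r_cu ctx)

theorem pow_r_cu (h : CMU675.PowUC675 K') : CU736.PowC616 K' :=
  fun ℓ Φ U ctx => h ℓ Φ U (ctx_cu_r ctx)

theorem simple_cu_r (h : CU736.SimpleC616 K') : CMU675.SimpleUC675 K' :=
  fun ℓ Φ U ctx => h ℓ Φ U (ctx_r_cu ctx)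

theorem simple_r_cu (h : CMU675.SimpleUC675 K') : CU736.SimpleC616 K' :=
  fun ℓ Φ U ctx => h ℓ Φ U (ctx_cu_r ctx)

theorem mulG_cu_r (h : CU736.MulGC616 K') : CMU675.MulGUC675 K' :=
  fun ℓ Φ U ctx => h ℓ Φ U (ctx_r_cu ctx)

theorem mulG_r_cu (h : CMU675.MulGUC675 K') : CU736.MulGC616 K' :=
  fun ℓ Φ U ctx => h ℓ Φ U (ctx_cu_r ctx)

theorem dict_cu_r (h : CU736.DictC616 K') : CMU675.DictUC675 K' :=
  fun ℓ Φ U ctx => h ℓ Φ U (ctx_r_cu ctx)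

theorem dict_r_cu (h : CMU675.DictUC675 K') : CU736.DictC616 K' :=
  fun ℓ Φ U ctx => h ℓ Φ U (ctx_cu_r ctx)

end ClassModel

end Fermat.Agent.LT.T7.GL736

end
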