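import Fermat.Agent.LT.T7.H736.UpS
import Fermat.Agent.LT.T7.H616.ClassModelTop

/-!
# Row LT, tower T7, node T7.L2.2.N.1 `ClassModelC`: THE CUT IN CORE FORM (over `K'` alone)

OFF-MAIN.  Definitions, frozen Props, PROVED top and PROVED bridges.  No hole, nothing assumed.
ADDITIVE (new names only: namespace `Fermat.Agent.LT.T7.CU736`).

MECHANICAL RETYPING (helper736) of the cut of helper616, `T7/H616/ClassModelSpec.lean` (8568bae7)
and `ClassModelTop.lean` (baf76075), onto `H29.UpData K'` / `H29.IsUpData` (see the header of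
`T7/H736/Core/Blocks.lean` for the substitution).  The definitions of helper616 over ONE field
(`CM616.cosetLin616`, `rsigLin616`, `classSp616`, `restr616`, `IsLevelInv616`, his tools) are used
as they are.  `Ctx616 K' ℓ Φ U` = `ℓ.Prime`, `TotCplx K'`, `IsCuspAdelicSph0 K' Φ`,
`IsUpData ℓ Φ U`, `BaseStableU U`.

    classModelUC_of : FinDimC616 K' → NontrivC616 K' → StabGC616 K' → StabSC616 K' → CommGIC616 K'
        → LocCommC616 K' → LocMoveC616 K' → PowC616 K' → SimpleC616 K' → MulGC616 K' → DictC616 K'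
        → SU736.ClassModelUC K'                                          (PROVED, core form)
    nonVanCoreC_of_leaves : … the same hypotheses … → H29.NonVanCoreC K'
    …_of_core : CU736.X K' → CM616.X K K'   for each of the 11 leaves    (PROVED bridges)
-/

set_option autoImplicit false

open AutomorphicForm IsDedekindDomain NumberField MeasureTheory
open scoped ComplexConjugate

noncomputable section

namespace Fermat.Agent.LT.T7.CU736

open Fermat.Agent.LT.H556 Fermat.Agent.LT.H556.A0 Fermat.Agent.LT.T7 Fermat.Agent.LT.T7.SU736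

attribute [local instance] Fermat.Agent.LT.T5.instMeasurableSpaceG

/-! ## 2. The model -/

section Model

variable {K' : Type} [Field K'] [NumberField K']

/-- The class space of `Φ` at the base level. -/
def cls616 (U : H29.UpData K') (ℓ : ℕ) (Φ : HeckeEigensystem K' ℂ) : Submodule ℂ (G K' → ℂ) :=
  CM616.classSp616 U.𝔑₀ U.R'.r ℓ U.o (eigOf Φ)

/-- The double coset operators of the bad elements on the class space. -/
def gSet616 (U : H29.UpData K') (ℓ : ℕ) (Φ : HeckeEigensystem K' ℂ) :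
    Set (Module.End ℂ (cls616 U ℓ Φ)) :=
  {T | ∃ (g : G K') (Hg : Finset (G K')), U.IsBad g ∧ IsDblCosetSystem U.𝔑₀ g Hg ∧
    T = CM616.restr616 (cls616 U ℓ Φ) (CM616.cosetLin616 Hg)}

/-- The sums of right translates supported at `o j` which preserve the class space. -/
def iSet616 (U : H29.UpData K') (ℓ : ℕ) (Φ : HeckeEigensystem K' ℂ) (j : ℕ) :
    Set (Module.End ℂ (cls616 U ℓ Φ)) :=
  {T | ∃ H : Finset (G K'), (∀ h ∈ H, IsLocalAtFin (U.o j) h) ∧
    (∀ ψ ∈ cls616 U ℓ Φ, CM616.cosetLin616 H ψ ∈ cls616 U ℓ Φ) ∧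
    T = CM616.restr616 (cls616 U ℓ Φ) (CM616.cosetLin616 H)}

/-- `R(σ)` on the class space. -/
def sOp616 (U : H29.UpData K') (ℓ : ℕ) (Φ : HeckeEigensystem K' ℂ) :
    Module.End ℂ (cls616 U ℓ Φ) :=
  CM616.restr616 (cls616 U ℓ Φ) (CM616.rsigLin616 U.s)

/-- `R(σ)⁻¹` on the class space. -/
def sInvOp616 (U : H29.UpData K') (ℓ : ℕ) (Φ : HeckeEigensystem K' ℂ) :
    Module.End ℂ (cls616 U ℓ Φ) :=
  CM616.restr616 (cls616 U ℓ Φ) (CM616.rsigInvLin616 U.s)

end Model

/-! ## 3. The context and the leaves -/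

section Leaves

variable (K' : Type) [Field K'] [NumberField K']

/-- The hypotheses of `SU736.ClassModelUC`. -/
structure Ctx616 (ℓ : ℕ) (Φ : HeckeEigensystem K' ℂ) (U : H29.UpData K') : Prop where
  prime : ℓ.Prime
  cplx : TotCplx K'
  cusp : A0.IsCuspAdelicSph0 K' Φ
  data : H29.IsUpData ℓ Φ U
  stable : H29.BaseStableU U

/-- **LEAF CM.01 = FIN-DIM.**  The class space is finite dimensional. -/
def FinDimC616 : Prop :=
  ∀ (ℓ : ℕ) (Φ : HeckeEigensystem K' ℂ) (U : H29.UpData K'), Ctx616 K' ℓ Φ U →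
    FiniteDimensional ℂ (cls616 U ℓ Φ)

/-- **LEAF CM.02 = NON-TRIVIAL.**  There is a non-zero invariant eigenfunction with the data of
`Φ` at the base level (the form of `Φ`). -/
def NontrivC616 : Prop :=
  ∀ (ℓ : ℕ) (Φ : HeckeEigensystem K' ℂ) (U : H29.UpData K'), Ctx616 K' ℓ Φ U →
    ∃ ψ : G K' → ℂ, IsEigFn U.𝔑₀ U.R'.r ℓ U.o ψ (eigOf Φ) ∧ ∃ x : G K', ψ x ≠ 0

/-- **LEAF CM.03 = STAB-G.**  The double coset operator of a bad element maps the invariant
eigenfunctions with the data of `Φ` to such functions. -/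
def StabGC616 : Prop :=
  ∀ (ℓ : ℕ) (Φ : HeckeEigensystem K' ℂ) (U : H29.UpData K'), Ctx616 K' ℓ Φ U →
    ∀ (g : G K') (Hg : Finset (G K')), U.IsBad g → IsDblCosetSystem U.𝔑₀ g Hg →
      ∀ ψ : G K' → ℂ, IsEigFn U.𝔑₀ U.R'.r ℓ U.o ψ (eigOf Φ) →
        IsEigFn U.𝔑₀ U.R'.r ℓ U.o (cosetOp Hg ψ) (eigOf Φ)

/-- **LEAF CM.04 = STAB-S.**  `R(σ)` and `R(σ)⁻¹` map the invariant eigenfunctions with the data
of `Φ` to such functions (`BaseStable`, `IsL2Data.const`). -/
def StabSC616 : Prop :=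
  ∀ (ℓ : ℕ) (Φ : HeckeEigensystem K' ℂ) (U : H29.UpData K'), Ctx616 K' ℓ Φ U →
    ∀ ψ : G K' → ℂ, IsEigFn U.𝔑₀ U.R'.r ℓ U.o ψ (eigOf Φ) →
      IsEigFn U.𝔑₀ U.R'.r ℓ U.o (T5.Rsig U.s ψ) (eigOf Φ) ∧
        IsEigFn U.𝔑₀ U.R'.r ℓ U.o (fun x => ψ (U.s.onG x)) (eigOf Φ)

/-- **LEAF CM.05 = COMM-GI.**  On the functions `ψ` such that `ψ` and `cosetOp H ψ` are right
invariant under `U(𝔑₀)`, the double coset operator of a bad element commutes with the sum of the
right translates by a finite set `H` of elements supported at `o j`. -/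
def CommGIC616 : Prop :=
  ∀ (ℓ : ℕ) (Φ : HeckeEigensystem K' ℂ) (U : H29.UpData K'), Ctx616 K' ℓ Φ U →
    ∀ (g : G K') (Hg : Finset (G K')), U.IsBad g → IsDblCosetSystem U.𝔑₀ g Hg →
      ∀ j < ℓ, ∀ H : Finset (G K'), (∀ h ∈ H, IsLocalAtFin (U.o j) h) →
        ∀ ψ : G K' → ℂ, CM616.IsLevelInv616 U.𝔑₀ ψ → CM616.IsLevelInv616 U.𝔑₀ (cosetOp H ψ) →
          ∀ x : G K', cosetOp Hg (cosetOp H ψ) x = cosetOp H (cosetOp Hg ψ) x

/-- **LEAF CM.06 = LOC-COMM.**  Elements supported at two different places of the orbit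
commute. -/
def LocCommC616 : Prop :=
  ∀ (ℓ : ℕ) (Φ : HeckeEigensystem K' ℂ) (U : H29.UpData K'), Ctx616 K' ℓ Φ U →
    ∀ i < ℓ, ∀ j < ℓ, i ≠ j → ∀ h h' : G K',
      IsLocalAtFin (U.o i) h → IsLocalAtFin (U.o j) h' → h * h' = h' * h

/-- **LEAF CM.07 = LOC-MOVE.**  `σ⁻¹` maps the elements supported at `o (j+1)` to elements
supported at `o j`, and the elements supported at `o 0` to elements supported at `o (ℓ-1)`. -/
def LocMoveC616 : Prop :=
  ∀ (ℓ : ℕ) (Φ : HeckeEigensystem K' ℂ) (U : H29.UpData K'), Ctx616 K' ℓ Φ U →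
    (∀ j : ℕ, j + 1 < ℓ → ∀ h : G K', IsLocalAtFin (U.o (j + 1)) h →
      IsLocalAtFin (U.o j) (U.s.onGinv h)) ∧
    ∀ h : G K', IsLocalAtFin (U.o 0) h → IsLocalAtFin (U.o (ℓ - 1)) (U.s.onGinv h)

/-- **LEAF CM.08 = POW.**  `σ⁻ℓ = 1` on `GL₂(𝔸_{K'})`. -/
def PowC616 : Prop :=
  ∀ (ℓ : ℕ) (Φ : HeckeEigensystem K' ℂ) (U : H29.UpData K'), Ctx616 K' ℓ Φ U →
    ∀ x : G K', (⇑U.s.onGinv)^[ℓ] x = x

/-- **LEAF CM.09 = SIMPLE** (multiplicity one in module form).  A subspace of the class space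
which is stable under the double coset operators of the bad elements and under the sums of right
translates supported at the places of the orbit (those which preserve the class space) is `0` or
the class space. -/
def SimpleC616 : Prop :=
  ∀ (ℓ : ℕ) (Φ : HeckeEigensystem K' ℂ) (U : H29.UpData K'), Ctx616 K' ℓ Φ U →
    ∀ W : Submodule ℂ (G K' → ℂ), W ≤ cls616 U ℓ Φ →
      (∀ (g : G K') (Hg : Finset (G K')), U.IsBad g → IsDblCosetSystem U.𝔑₀ g Hg →
        ∀ ψ ∈ W, cosetOp Hg ψ ∈ W) →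
      (∀ j < ℓ, ∀ H : Finset (G K'), (∀ h ∈ H, IsLocalAtFin (U.o j) h) →
        (∀ ψ ∈ cls616 U ℓ Φ, cosetOp H ψ ∈ cls616 U ℓ Φ) → ∀ ψ ∈ W, cosetOp H ψ ∈ W) →
      W = ⊥ ∨ W = cls616 U ℓ Φ

/-- **LEAF CM.10 = MUL-G.**  On the functions which are right invariant under `U(𝔑₀)` the
product of two double coset operators of bad elements is a linear combination of double coset
operators of bad elements. -/
def MulGC616 : Prop :=
  ∀ (ℓ : ℕ) (Φ : HeckeEigensystem K' ℂ) (U : H29.UpData K'), Ctx616 K' ℓ Φ U →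
    ∀ (g g' : G K') (Hg Hg' : Finset (G K')), U.IsBad g → IsDblCosetSystem U.𝔑₀ g Hg →
      U.IsBad g' → IsDblCosetSystem U.𝔑₀ g' Hg' →
      ∃ (n : ℕ) (c : Fin n → ℂ) (g'' : Fin n → G K') (H'' : Fin n → Finset (G K')),
        (∀ i, U.IsBad (g'' i) ∧ IsDblCosetSystem U.𝔑₀ (g'' i) (H'' i)) ∧
        ∀ ψ : G K' → ℂ, CM616.IsLevelInv616 U.𝔑₀ ψ →
          ∀ x : G K', cosetOp Hg (cosetOp Hg' ψ) x = ∑ i, c i * cosetOp (H'' i) ψ x

/-- **LEAF CM.11 = DICT.**  For every finite orthonormal basis of the class space the twisted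
trace of `[U g U] R(σ)` is the trace of the operator of the model. -/
def DictC616 : Prop :=
  ∀ (ℓ : ℕ) (Φ : HeckeEigensystem K' ℂ) (U : H29.UpData K'), Ctx616 K' ℓ Φ U →
    ∀ (g : G K') (Hg : Finset (G K')), U.IsBad g → IsDblCosetSystem U.𝔑₀ g Hg →
      ∀ (q : ℕ → G K' → ℂ) (J : Finset ℕ),
        IsClassBasisOn U.𝔑₀ U.R' ℓ U.o (eigOf Φ) q J →
          twTrace U.s U.R' Hg q J
            = LinearMap.trace ℂ (cls616 U ℓ Φ)
                (CM616.restr616 (cls616 U ℓ Φ) (CM616.cosetLin616 Hg) * sOp616 U ℓ Φ)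

end Leaves

section Top

variable {K' : Type} [Field K'] [NumberField K']

theorem isBad_oneU (U : H29.UpData K') : U.IsBad (1 : G K') :=
  ⟨fun w => CM616.trivAtInf_one616 w, fun v _ => CM616.trivAtFin_one616 v⟩

/-- **THE TOP OF THE NODE `ClassModelC`.** -/
theorem classModelUC_of (h01 : FinDimC616 K') (h02 : NontrivC616 K')
    (h03 : StabGC616 K') (h04 : StabSC616 K') (h05 : CommGIC616 K')
    (h06 : LocCommC616 K') (h07 : LocMoveC616 K') (h08 : PowC616 K')
    (h09 : SimpleC616 K') (h10 : MulGC616 K') (h11 : DictC616 K') :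
    SU736.ClassModelUC K' := by
  classical
  intro ℓ hℓ hcplx Φ hΦ U hU hst
  have ctx : Ctx616 K' ℓ Φ U := ⟨hℓ, hcplx, hΦ, hU, hst⟩
  have hl : 0 < ℓ := hℓ.pos
  -- stability of the class space
  have stS : ∀ ψ ∈ cls616 U ℓ Φ, CM616.rsigLin616 U.s ψ ∈ cls616 U ℓ Φ :=
    CM616.mem_classSp_of_map616 (CM616.rsigLin616 U.s) fun ψ hψ => (h04 ℓ Φ U ctx ψ hψ).1
  have stSi : ∀ ψ ∈ cls616 U ℓ Φ, CM616.rsigInvLin616 U.s ψ ∈ cls616 U ℓ Φ :=
    CM616.mem_classSp_of_map616 (CM616.rsigInvLin616 U.s) fun ψ hψ => (h04 ℓ Φ U ctx ψ hψ).2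
  have stG : ∀ (g : G K') (Hg : Finset (G K')), U.IsBad g → IsDblCosetSystem U.𝔑₀ g Hg →
      ∀ ψ ∈ cls616 U ℓ Φ, CM616.cosetLin616 Hg ψ ∈ cls616 U ℓ Φ := fun g Hg hg hHg =>
    CM616.mem_classSp_of_map616 (CM616.cosetLin616 Hg) fun ψ hψ => h03 ℓ Φ U ctx g Hg hg hHg ψ hψ
  have lev : ∀ ψ ∈ cls616 U ℓ Φ, CM616.IsLevelInv616 U.𝔑₀ ψ := CM616.levelInv_of_mem616
  have hleft : ∀ g : G K', U.s.onGinv (U.s.onG g) = g := hst.left_inverse
  have hright : ∀ g : G K', U.s.onG (U.s.onGinv g) = g := hst.right_inverse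
  have hfd : FiniteDimensional ℂ (cls616 U ℓ Φ) := h01 ℓ Φ U ctx
  have hnt : Nontrivial (cls616 U ℓ Φ) := by
    obtain ⟨ψ, hψ, x, hx⟩ := h02 ℓ Φ U ctx
    refine ⟨⟨⟨ψ, Submodule.subset_span hψ⟩, 0, fun h => hx ?_⟩⟩
    have h' : ψ = 0 := congrArg Subtype.val h
    rw [h']
    rfl
  -- the conjugation by `R(σ)`
  have hconj : ∀ (w w' : HeightOneSpectrum (𝓞 K')),
      (∀ h : G K', IsLocalAtFin w' h → IsLocalAtFin w (U.s.onGinv h)) →
      ∀ H : Finset (G K'), (∀ h ∈ H, IsLocalAtFin w' h) →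
        (∀ ψ ∈ cls616 U ℓ Φ, CM616.cosetLin616 H ψ ∈ cls616 U ℓ Φ) →
        ∃ H' : Finset (G K'), (∀ h ∈ H', IsLocalAtFin w h) ∧
          (∀ ψ ∈ cls616 U ℓ Φ, CM616.cosetLin616 H' ψ ∈ cls616 U ℓ Φ) ∧
          sInvOp616 U ℓ Φ * CM616.restr616 (cls616 U ℓ Φ) (CM616.cosetLin616 H) * sOp616 U ℓ Φ
            = CM616.restr616 (cls616 U ℓ Φ) (CM616.cosetLin616 H') := by
    intro w w' hmove H hH hstH
    have key := CM616.conj_cosetOp616 U.s hleft hright H
    have hst' : ∀ ψ ∈ cls616 U ℓ Φ,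
        CM616.cosetLin616 (H.image U.s.onGinv) ψ ∈ cls616 U ℓ Φ := by
      intro ψ hψ
      rw [← key ψ]
      exact stSi _ (hstH _ (stS ψ hψ))
    refine ⟨H.image U.s.onGinv, ?_, hst', ?_⟩
    · intro h hh
      obtain ⟨h₀, hh₀, rfl⟩ := Finset.mem_image.1 hh
      exact hmove h₀ (hH h₀ hh₀)
    · apply LinearMap.ext
      intro v
      apply Subtype.ext
      rw [Module.End.mul_apply, Module.End.mul_apply]
      unfold sInvOp616 sOp616
      rw [CM616.restr616_apply _ _ stSi, CM616.restr616_apply _ _ hstH, CM616.restr616_apply _ _ stS,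
        CM616.restr616_apply _ _ hst', key]
  -- `S ^ n`
  have hpow : ∀ (n : ℕ) (v : cls616 U ℓ Φ),
      (((sOp616 U ℓ Φ ^ n) v : cls616 U ℓ Φ) : G K' → ℂ)
        = (CM616.rsigLin616 U.s)^[n] (v : G K' → ℂ) := by
    intro n
    induction n with
    | zero => intro v; rfl
    | succ n ih =>
      intro v
      rw [pow_succ', Module.End.mul_apply, Function.iterate_succ_apply', ← ih v]
      unfold sOp616
      rw [CM616.restr616_apply _ _ stS]
  have hSl : sOp616 U ℓ Φ ^ ℓ = 1 := by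
    apply LinearMap.ext
    intro v
    apply Subtype.ext
    rw [hpow ℓ v, Module.End.one_apply]
    funext x
    rw [CM616.iterate_rsig616, h08 ℓ Φ U ctx x]
  refine ⟨cls616 U ℓ Φ, inferInstance, inferInstance, hfd, hnt, gSet616 U ℓ Φ,
    iSet616 U ℓ Φ, sOp616 U ℓ Φ, sInvOp616 U ℓ Φ, ?_⟩
  refine
    { hS := ?_
      hS' := ?_
      hGI := ?_
      hII := ?_
      hdown := ?_
      hwrap := ?_
      hcent := ?_
      hirr := ?_
      h1 := ?_
      hmul := ?_
      dict := ?_ }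
  · -- hS
    apply LinearMap.ext
    intro v
    apply Subtype.ext
    rw [Module.End.mul_apply, Module.End.one_apply]
    unfold sOp616 sInvOp616
    rw [CM616.restr616_apply _ _ stS, CM616.restr616_apply _ _ stSi]
    funext x
    rw [CM616.rsigLin616_apply, CM616.rsigInvLin616_apply, hright]
  · -- hS'
    apply LinearMap.ext
    intro v
    apply Subtype.ext
    rw [Module.End.mul_apply, Module.End.one_apply]
    unfold sOp616 sInvOp616
    rw [CM616.restr616_apply _ _ stSi, CM616.restr616_apply _ _ stS]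
    funext x
    rw [CM616.rsigInvLin616_apply, CM616.rsigLin616_apply, hleft]
  · -- hGI
    rintro j hj _ ⟨g, Hg, hg, hHg, rfl⟩ _ ⟨H, hH, hstH, rfl⟩
    apply LinearMap.ext
    intro v
    apply Subtype.ext
    rw [Module.End.mul_apply, Module.End.mul_apply, CM616.restr616_apply _ _ (stG g Hg hg hHg),
      CM616.restr616_apply _ _ hstH, CM616.restr616_apply _ _ hstH, CM616.restr616_apply _ _ (stG g Hg hg hHg)]
    funext x
    exact h05 ℓ Φ U ctx g Hg hg hHg j hj H hH v.1 (lev v.1 v.2) (lev _ (hstH v.1 v.2)) x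
  · -- hII
    rintro i hi j hj hij _ ⟨H, hH, hstH, rfl⟩ _ ⟨H', hH', hstH', rfl⟩
    apply LinearMap.ext
    intro v
    apply Subtype.ext
    rw [Module.End.mul_apply, Module.End.mul_apply, CM616.restr616_apply _ _ hstH,
      CM616.restr616_apply _ _ hstH', CM616.restr616_apply _ _ hstH', CM616.restr616_apply _ _ hstH]
    funext x
    exact CM616.cosetOp_comm616 H H'
      (fun a ha b hb => h06 ℓ Φ U ctx i hi j hj hij a b (hH a ha) (hH' b hb)) v.1 x
  · -- hdown
    rintro j hj _ ⟨H, hH, hstH, rfl⟩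
    obtain ⟨H', hH', hstH', heq⟩ := hconj (U.o j) (U.o (j + 1))
      ((h07 ℓ Φ U ctx).1 j hj) H hH hstH
    rw [heq]
    exact Algebra.subset_adjoin ⟨H', hH', hstH', rfl⟩
  · -- hwrap
    rintro _ ⟨H, hH, hstH, rfl⟩
    obtain ⟨H', hH', hstH', heq⟩ := hconj (U.o (ℓ - 1)) (U.o 0)
      ((h07 ℓ Φ U ctx).2) H hH hstH
    rw [heq]
    exact Algebra.subset_adjoin ⟨H', hH', hstH', rfl⟩
  · -- hcent
    intro h _
    rw [hSl, one_mul, mul_one]
  · -- hirr
    intro W hG hI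
    have h := h09 ℓ Φ U ctx (W.map (cls616 U ℓ Φ).subtype)
      (Submodule.map_subtype_le _ W) ?_ ?_
    · rcases h with h | h
      · left
        rw [Submodule.eq_bot_iff]
        intro w hw
        have : ((w : cls616 U ℓ Φ) : G K' → ℂ) ∈ W.map (cls616 U ℓ Φ).subtype :=
          ⟨w, hw, rfl⟩
        rw [h, Submodule.mem_bot] at this
        exact Subtype.ext this
      · right
        rw [Submodule.eq_top_iff']
        intro v
        have : ((v : cls616 U ℓ Φ) : G K' → ℂ) ∈ W.map (cls616 U ℓ Φ).subtype := by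
          rw [h]
          exact v.2
        obtain ⟨w, hw, hwv⟩ := this
        have : w = v := Subtype.ext hwv
        rw [← this]
        exact hw
    · rintro g Hg hg hHg ψ ⟨w, hw, rfl⟩
      have := hG (CM616.restr616 (cls616 U ℓ Φ) (CM616.cosetLin616 Hg)) ⟨g, Hg, hg, hHg, rfl⟩ hw
      exact ⟨_, this, CM616.restr616_apply _ _ (stG g Hg hg hHg) w⟩
    · rintro j hj H hH hstH ψ ⟨w, hw, rfl⟩
      have := hI j hj (CM616.restr616 (cls616 U ℓ Φ) (CM616.cosetLin616 H)) ⟨H, hH, hstH, rfl⟩ hw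
      exact ⟨_, this, CM616.restr616_apply _ _ hstH w⟩
  · -- h1
    refine Submodule.subset_span ⟨1, {1}, isBad_oneU U, CM616.isDblCosetSystem_one616 _, ?_⟩
    apply LinearMap.ext
    intro v
    apply Subtype.ext
    rw [CM616.restr616_apply _ _ (stG 1 {1} (isBad_oneU U) (CM616.isDblCosetSystem_one616 _)),
      Module.End.one_apply, CM616.cosetLin616_apply, CM616.cosetOp_singleton_one616]
  · -- hmul
    rintro _ ⟨g, Hg, hg, hHg, rfl⟩ _ ⟨g', Hg', hg', hHg', rfl⟩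
    obtain ⟨n, c, g'', H'', hbad, hprod⟩ := h10 ℓ Φ U ctx g g' Hg Hg' hg hHg hg' hHg'
    have heq : CM616.restr616 (cls616 U ℓ Φ) (CM616.cosetLin616 Hg)
          * CM616.restr616 (cls616 U ℓ Φ) (CM616.cosetLin616 Hg')
        = ∑ i, c i • CM616.restr616 (cls616 U ℓ Φ) (CM616.cosetLin616 (H'' i)) := by
      apply LinearMap.ext
      intro v
      apply Subtype.ext
      rw [Module.End.mul_apply, CM616.restr616_apply _ _ (stG g Hg hg hHg),
        CM616.restr616_apply _ _ (stG g' Hg' hg' hHg'), LinearMap.sum_apply, Submodule.coe_sum]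
      funext x
      rw [Finset.sum_apply]
      rw [CM616.cosetLin616_apply, CM616.cosetLin616_apply, hprod v.1 (lev v.1 v.2) x]
      refine Finset.sum_congr rfl fun i _ => ?_
      rw [LinearMap.smul_apply, Submodule.coe_smul, Pi.smul_apply, smul_eq_mul,
        CM616.restr616_apply _ _ (stG (g'' i) (H'' i) (hbad i).1 (hbad i).2), CM616.cosetLin616_apply]
    rw [heq]
    exact Submodule.sum_mem _ fun i _ => Submodule.smul_mem _ _
      (Submodule.subset_span ⟨g'' i, H'' i, (hbad i).1, (hbad i).2, rfl⟩)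
  · -- dict
    rintro _ ⟨g, Hg, hg, hHg, rfl⟩
    exact ⟨g, Hg, hg, hHg, fun q J hq => h11 ℓ Φ U ctx g Hg hg hHg q J hq⟩

/-- **THE CORE NODE `H29.NonVanCoreC` from the eleven leaves in core form.** -/
theorem nonVanCoreC_of_leaves (h01 : FinDimC616 K') (h02 : NontrivC616 K')
    (h03 : StabGC616 K') (h04 : StabSC616 K') (h05 : CommGIC616 K')
    (h06 : LocCommC616 K') (h07 : LocMoveC616 K') (h08 : PowC616 K')
    (h09 : SimpleC616 K') (h10 : MulGC616 K') (h11 : DictC616 K') :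
    H29.NonVanCoreC K' :=
  SU736.nonVanCoreC_of (classModelUC_of h01 h02 h03 h04 h05 h06 h07 h08 h09 h10 h11)

end Top

/-! ## Bridges: every core leaf implies the leaf of helper616 (cyclic step) -/

section Bridges

variable {K K' : Type} [Field K] [NumberField K] [Field K'] [NumberField K'] [Algebra K K']

theorem ctx_to_core {ℓ : ℕ} {Φ : HeckeEigensystem K' ℂ} {Dt : L2Data K K'}
    (h : CM616.Ctx616 K K' ℓ Φ Dt) : Ctx616 K' ℓ Φ (H29.upOf Dt) where
  prime := h.cyc.prime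
  cplx := H29.totCplx_of_base h.cplx
  cusp := h.cusp
  data := H29.isUpData_upOf h.data
  stable := H29.baseStableU_upOf h.stable

theorem finDimC_of_core (hC : FinDimC616 K') : CM616.FinDimC616 K K' :=
  fun ℓ Φ Dt ctx => hC ℓ Φ (H29.upOf Dt) (ctx_to_core ctx)

theorem nontrivC_of_core (hC : NontrivC616 K') : CM616.NontrivC616 K K' :=
  fun ℓ Φ Dt ctx => hC ℓ Φ (H29.upOf Dt) (ctx_to_core ctx)

theorem stabGC_of_core (hC : StabGC616 K') : CM616.StabGC616 K K' :=
  fun ℓ Φ Dt ctx => hC ℓ Φ (H29.upOf Dt) (ctx_to_core ctx)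

theorem stabSC_of_core (hC : StabSC616 K') : CM616.StabSC616 K K' :=
  fun ℓ Φ Dt ctx => hC ℓ Φ (H29.upOf Dt) (ctx_to_core ctx)

theorem commGIC_of_core (hC : CommGIC616 K') : CM616.CommGIC616 K K' :=
  fun ℓ Φ Dt ctx => hC ℓ Φ (H29.upOf Dt) (ctx_to_core ctx)

theorem locCommC_of_core (hC : LocCommC616 K') : CM616.LocCommC616 K K' :=
  fun ℓ Φ Dt ctx => hC ℓ Φ (H29.upOf Dt) (ctx_to_core ctx)

theorem locMoveC_of_core (hC : LocMoveC616 K') : CM616.LocMoveC616 K K' :=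
  fun ℓ Φ Dt ctx => hC ℓ Φ (H29.upOf Dt) (ctx_to_core ctx)

theorem powC_of_core (hC : PowC616 K') : CM616.PowC616 K K' :=
  fun ℓ Φ Dt ctx => hC ℓ Φ (H29.upOf Dt) (ctx_to_core ctx)

theorem simpleC_of_core (hC : SimpleC616 K') : CM616.SimpleC616 K K' :=
  fun ℓ Φ Dt ctx => hC ℓ Φ (H29.upOf Dt) (ctx_to_core ctx)

theorem mulGC_of_core (hC : MulGC616 K') : CM616.MulGC616 K K' :=
  fun ℓ Φ Dt ctx => hC ℓ Φ (H29.upOf Dt) (ctx_to_core ctx)

theorem dictC_of_core (hC : DictC616 K') : CM616.DictC616 K K' :=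
  fun ℓ Φ Dt ctx => hC ℓ Φ (H29.upOf Dt) (ctx_to_core ctx)

end Bridges

/-! ## Appendix: the equation lemmas of the definitions of this file are realised HERE -/

theorem eqns_realised_coreClassModel736 : True := by
  have _m1 := @cls616.eq_1
  have _m2 := @cls616.eq_def
  have _m3 := @cls616.eq_unfold
  have _g1 := @gSet616.eq_1
  have _g2 := @gSet616.eq_def
  have _g3 := @gSet616.eq_unfold
  have _i1 := @iSet616.eq_1
  have _i2 := @iSet616.eq_def
  have _i3 := @iSet616.eq_unfold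
  have _s1 := @sOp616.eq_1
  have _s2 := @sOp616.eq_def
  have _s3 := @sOp616.eq_unfold
  have _t1 := @sInvOp616.eq_1
  have _t2 := @sInvOp616.eq_def
  have _t3 := @sInvOp616.eq_unfold
  have _a1 := @FinDimC616.eq_1
  have _a2 := @FinDimC616.eq_def
  have _a3 := @FinDimC616.eq_unfold
  have _b1 := @NontrivC616.eq_1
  have _b2 := @NontrivC616.eq_def
  have _b3 := @NontrivC616.eq_unfold
  have _c1 := @StabGC616.eq_1
  have _c2 := @StabGC616.eq_def
  have _c3 := @StabGC616.eq_unfold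
  have _d1 := @StabSC616.eq_1
  have _d2 := @StabSC616.eq_def
  have _d3 := @StabSC616.eq_unfold
  have _e1 := @CommGIC616.eq_1
  have _e2 := @CommGIC616.eq_def
  have _e3 := @CommGIC616.eq_unfold
  have _f1 := @LocCommC616.eq_1
  have _f2 := @LocCommC616.eq_def
  have _f3 := @LocCommC616.eq_unfold
  have _h1 := @LocMoveC616.eq_1
  have _h2 := @LocMoveC616.eq_def
  have _h3 := @LocMoveC616.eq_unfold
  have _j1 := @PowC616.eq_1
  have _j2 := @PowC616.eq_def
  have _j3 := @PowC616.eq_unfold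
  have _k1 := @SimpleC616.eq_1
  have _k2 := @SimpleC616.eq_def
  have _k3 := @SimpleC616.eq_unfold
  have _l1 := @MulGC616.eq_1
  have _l2 := @MulGC616.eq_def
  have _l3 := @MulGC616.eq_unfold
  have _n1 := @DictC616.eq_1
  have _n2 := @DictC616.eq_def
  have _n3 := @DictC616.eq_unfold
  trivial

end Fermat.Agent.LT.T7.CU736

end
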