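import Fermat.Agent.LT.T7.H736.Core.Blocks
import Fermat.Agent.LT.T7.H561.OpsSpec

/-!
# Row LT, tower T7, node T7.L2.2.B4 `OpsC561`: THE CUT IN CORE FORM (over `K'` alone)

OFF-MAIN.  Definitions, frozen Props, PROVED top and PROVED bridges.  No hole, nothing assumed.
ADDITIVE (new names only: namespace `Fermat.Agent.LT.T7.CU736`).

MECHANICAL RETYPING (helper736) of `T7/H561/OpsSpec.lean` (helper561, 17293f38) onto
`H29.UpData K'` / `H29.IsUpData`; see the header of `T7/H736/Core/Blocks.lean` for the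
substitution.  `IsSetup561 ℓ Φ U` = `ℓ.Prime`, `TotCplx K'`, `IsCuspAdelicSph0 K' Φ`,
`IsUpData ℓ Φ U`.

    opsC_of561 : IwSysExistsC561 K' → OpsEigC561 K' → OpsRelC561 K' → OpsCommC561 K'
                   → OpsPerC561 K' → OpsAdjC561 K' → OpsSigC561 K' → OpsLinkC561 K'
                   → BadOpC561 K' → OpsC561 K'                       (PROVED, core form)
    …_of_core   : CU736.X K' → H561.X K K'   for each of the 9 leaves  (PROVED bridges)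
-/

set_option autoImplicit false

open AutomorphicForm IsDedekindDomain NumberField MeasureTheory
open scoped ComplexConjugate Matrix

noncomputable section

namespace Fermat.Agent.LT.T7.CU736

open Fermat.Agent.LT.H556 Fermat.Agent.LT.H556.A0 Fermat.Agent.LT.T7

attribute [local instance] Fermat.Agent.LT.T5.instMeasurableSpaceG

section Ops

variable {K' : Type} [Field K'] [NumberField K']

/-- The hypotheses of the core node on the data. -/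
structure IsSetup561 (ℓ : ℕ) (Φ : HeckeEigensystem K' ℂ) (U : H29.UpData K') : Prop where
  prime : ℓ.Prime
  cplx : TotCplx K'
  cusp : A0.IsCuspAdelicSph0 K' Φ
  data : H29.IsUpData ℓ Φ U

/-- **The explicit systems along the orbit.** -/
structure IsIwSys561 (U : H29.UpData K') (Hs : ℕ → Finset (G K')) (ω : ℕ → G K') : Prop where
  ω_local : ∀ j, IsLocalAtFin (U.o j) (ω j)
  ω_comp : ∀ j, ∃ c : (U.o j).adicCompletion K', Valued.v c = WithZero.exp (-1 : ℤ) ∧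
    finComp (U.o j) (ω j) = !![0, 1; c, 0]
  Hs_card : ∀ j, (Hs j).card = Ideal.absNorm (U.o j).asIdeal
  Hs_local : ∀ j, ∀ h ∈ Hs j, IsLocalAtFin (U.o j) h
  Hs_comp : ∀ j, ∀ h ∈ Hs j, ∃ a : (U.o j).adicCompletion K',
    a ∈ (U.o j).adicCompletionIntegers K' ∧ finComp (U.o j) h = !![a, 1; 1, 0]
  Hs_inj : ∀ j, ∀ h ∈ Hs j, ∀ h' ∈ Hs j, h ≠ h' → ¬ T5.InIwahori (U.o j) (h⁻¹ * h')

variable (K')

/-- **LEAF B4.1 = IW-SYS-EXISTS.**  Uniformisers exist, the residue field has `N w` elements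
with integral representatives, an adele with one prescribed component (an idele for an
invertible matrix) exists. -/
def IwSysExistsC561 : Prop :=
  ∀ (ℓ : ℕ) (Φ : HeckeEigensystem K' ℂ) (U : H29.UpData K'), IsSetup561 ℓ Φ U →
    ∃ (Hs : ℕ → Finset (G K')) (ω : ℕ → G K'), IsIwSys561 U Hs ω

/-- **LEAF B4.2 = OPS-EIG.**  `S_j` and `ρ_j` preserve the classes.
Proof.  A finite sum of right translations by elements supported at finite places preserves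
continuity, boundedness, the left invariance, the vanishing of the constant term, the
`K_∞`-type, the invariance under the ray generator and the positive scalars at infinity; the
elements commute with the Hecke coset systems at `v ∉ S'` (`orbit_level`: `o j ∈ S'`) and with
the spheres at infinity (sums and integrals commute: continuous integrands).  Level `𝔑₀` and
Iwahori invariance: for `u` in the level group, resp. in the Iwahori subgroups along the orbit,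
`u h = h' u'` with `h ↦ h'` a permutation of `Hs j` (`I s I = ⨆ h I`; the level group at `o j` is
contained in `I` and normal in `GL₂(𝒪)`; `ω` normalises `I`). -/
def OpsEigC561 : Prop :=
  ∀ (ℓ : ℕ) (Φ : HeckeEigensystem K' ℂ) (U : H29.UpData K'), IsSetup561 ℓ Φ U →
    ∀ (Hs : ℕ → Finset (G K')) (ω : ℕ → G K'), IsIwSys561 U Hs ω →
      ∀ (j : ℕ) (ψ : G K' → ℂ) (C : EigData K'), IsEigFn U.𝔑₀ U.R'.r ℓ U.o ψ C →
        IsEigFn U.𝔑₀ U.R'.r ℓ U.o (cosetOp (Hs j) ψ) C ∧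
        IsEigFn U.𝔑₀ U.R'.r ℓ U.o (H561.trOp561 (ω j) ψ) C

/-- **LEAF B4.3 = OPS-REL.**  `S_j² = (q-1) S_j + q` and `ρ_j² S_j = S_j ρ_j²` on `W`
(`q = N (o 0) = N (o j)`: `orbit_rel`).
Proof.  `!![a,1;1,0] !![b,1;1,0] = !![ab+1, a; b, 1]`: in `I` iff `b ∈ 𝔭`, i.e. for ONE `b`;
otherwise in `!![c,1;1,0] I` with `c = a + b⁻¹`, each `c ≠ a` once.  `ω² = ϖ` is central. -/
def OpsRelC561 : Prop :=
  ∀ (ℓ : ℕ) (Φ : HeckeEigensystem K' ℂ) (U : H29.UpData K'), IsSetup561 ℓ Φ U →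
    ∀ (Hs : ℕ → Finset (G K')) (ω : ℕ → G K'), IsIwSys561 U Hs ω →
      ∀ (j : ℕ) (ψ : G K' → ℂ), IsWFn U.𝔑₀ U.R'.r ℓ U.o ψ → ∀ x : G K',
        cosetOp (Hs j) (cosetOp (Hs j) ψ) x
          = (((Ideal.absNorm (U.o 0).asIdeal : ℕ) : ℂ) - 1) * cosetOp (Hs j) ψ x
            + ((Ideal.absNorm (U.o 0).asIdeal : ℕ) : ℂ) * ψ x ∧
        H561.trOp561 (ω j) (H561.trOp561 (ω j) (cosetOp (Hs j) ψ)) x
          = cosetOp (Hs j) (H561.trOp561 (ω j) (H561.trOp561 (ω j) ψ)) x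

/-- **LEAF B4.4 = OPS-COMM.**  The operators at two different places of the orbit commute
(`o j ≠ o j'` for `j ≠ j' < ℓ`: `orbit_ne`, `orbit_rel`; elements supported at different places
commute). -/
def OpsCommC561 : Prop :=
  ∀ (ℓ : ℕ) (Φ : HeckeEigensystem K' ℂ) (U : H29.UpData K'), IsSetup561 ℓ Φ U →
    ∀ (Hs : ℕ → Finset (G K')) (ω : ℕ → G K'), IsIwSys561 U Hs ω →
      ∀ j j' : ℕ, j < ℓ → j' < ℓ → j ≠ j' → ∀ (ψ : G K' → ℂ) (x : G K'),
        cosetOp (Hs j) (cosetOp (Hs j') ψ) x = cosetOp (Hs j') (cosetOp (Hs j) ψ) x ∧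
        cosetOp (Hs j) (H561.trOp561 (ω j') ψ) x = H561.trOp561 (ω j') (cosetOp (Hs j) ψ) x ∧
        H561.trOp561 (ω j) (H561.trOp561 (ω j') ψ) x = H561.trOp561 (ω j') (H561.trOp561 (ω j) ψ) x

/-- **LEAF B4.5 = OPS-PER.**  `o (j + ℓ) = o j` (`σ^ℓ = 1`, asset helper415) and two systems at
the same place define the same operators on `W`. -/
def OpsPerC561 : Prop :=
  ∀ (ℓ : ℕ) (Φ : HeckeEigensystem K' ℂ) (U : H29.UpData K'), IsSetup561 ℓ Φ U →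
    ∀ (Hs : ℕ → Finset (G K')) (ω : ℕ → G K'), IsIwSys561 U Hs ω →
      ∀ (j : ℕ) (ψ : G K' → ℂ), IsWFn U.𝔑₀ U.R'.r ℓ U.o ψ → ∀ x : G K',
        cosetOp (Hs (j + ℓ)) ψ x = cosetOp (Hs j) ψ x ∧
        H561.trOp561 (ω (j + ℓ)) ψ x = H561.trOp561 (ω j) ψ x

/-- **LEAF B4.6 = OPS-ADJ.**  `S_j` is symmetric and `ρ_j` is an isometry on `W`.
Proof.  `⟨R(h) ψ, R(h) χ⟩ = ⟨ψ, χ⟩` for automorphic functions invariant under the ray generator
(T2 `OpsAdjT`: `F h` is a fundamental domain of a translate of the slab, cut and move by powers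
of `r`).  `⟨R(h_a) ψ, χ⟩ = ⟨ψ, R(h_a⁻¹) χ⟩`, `h_a⁻¹ = s x_{-a}`, `R(h_a⁻¹) χ = R(s) χ` on `W`;
`⟨ψ, R(s) χ⟩ = ⟨R(x_b⁻¹) ψ, R(s) χ⟩ = ⟨ψ, R(x_b s) χ⟩` for every `b`: `q ⟨ψ, R(s) χ⟩ = ⟨ψ, S χ⟩`. -/
def OpsAdjC561 : Prop :=
  ∀ (ℓ : ℕ) (Φ : HeckeEigensystem K' ℂ) (U : H29.UpData K'), IsSetup561 ℓ Φ U →
    ∀ (Hs : ℕ → Finset (G K')) (ω : ℕ → G K'), IsIwSys561 U Hs ω →
      ∀ (j : ℕ) (ψ χ : G K' → ℂ), IsWFn U.𝔑₀ U.R'.r ℓ U.o ψ →
        IsWFn U.𝔑₀ U.R'.r ℓ U.o χ →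
        T5.innerD U.R'.μ U.R'.F (cosetOp (Hs j) ψ) χ
          = T5.innerD U.R'.μ U.R'.F ψ (cosetOp (Hs j) χ) ∧
        T5.innerD U.R'.μ U.R'.F (H561.trOp561 (ω j) ψ) (H561.trOp561 (ω j) χ)
          = T5.innerD U.R'.μ U.R'.F ψ χ

/-- **LEAF B4.7 = OPS-SIGMA.**  `R(σ) S_j = S_{j+1} R(σ)`, `R(σ) ρ_j = ρ_{j+1} R(σ)` on `W`.
Proof.  `R(σ) R(h) = R(σ h) R(σ)`; `σ (Hs j)`, `σ (ω j)` is a system at `o (j+1)` up to the
Iwahori subgroup (asset helper415: `valued_onG415`, `inIwahori_onG415`, locality); `R(σ) ψ ∈ W`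
(`BaseStable561`); two systems at the same place define the same operators on `W`. -/
def OpsSigC561 : Prop :=
  ∀ (ℓ : ℕ) (Φ : HeckeEigensystem K' ℂ) (U : H29.UpData K'), IsSetup561 ℓ Φ U →
    BaseStable561 U →
    ∀ (Hs : ℕ → Finset (G K')) (ω : ℕ → G K'), IsIwSys561 U Hs ω →
      ∀ (j : ℕ) (ψ : G K' → ℂ), IsWFn U.𝔑₀ U.R'.r ℓ U.o ψ → ∀ x : G K',
        T5.Rsig U.s (cosetOp (Hs j) ψ) x = cosetOp (Hs (j + 1)) (T5.Rsig U.s ψ) x ∧
        T5.Rsig U.s (H561.trOp561 (ω j) ψ) x = H561.trOp561 (ω (j + 1)) (T5.Rsig U.s ψ) x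

/-- **LEAF B4.8 = OPS-LINK.**  `!![a,1;1,0] !![0,1;ϖ,0] = !![ϖ,a;0,1] = !![1,a;0,1] !![ϖ,0;0,1]`
is in `I t I`; `ω² = ϖ`. -/
def OpsLinkC561 : Prop :=
  ∀ (ℓ : ℕ) (Φ : HeckeEigensystem K' ℂ) (U : H29.UpData K'), IsSetup561 ℓ Φ U →
    ∀ (Hs : ℕ → Finset (G K')) (ω : ℕ → G K'), IsIwSys561 U Hs ω →
      IsIwCosetSystem (U.o 0) ((Hs 0).map (mulRightEmbedding (ω 0))) ∧
      IsScalarUniformizerAt (U.o 0) (ω 0 * ω 0)

/-- **LEAF B4.9 = BAD-OP.**  The Hecke operator of a bad element: a finite system of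
representatives of `U g U / U` exists (`U = U(𝔑₀)` is compact open in the finite adelic group,
`g` is trivial at infinity), the operator preserves the classes (as in B4.2: `g` is supported at
the places of `S'` outside the orbit) and commutes with the operators along the orbit
(`u h = h' u'` with `u` in the Iwahori subgroups along the orbit, which normalise the level
group). -/
def BadOpC561 : Prop :=
  ∀ (ℓ : ℕ) (Φ : HeckeEigensystem K' ℂ) (U : H29.UpData K'), IsSetup561 ℓ Φ U →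
    ∀ g : G K', U.IsBad g →
      ∃ Hg : Finset (G K'), IsDblCosetSystem U.𝔑₀ g Hg ∧
        (∀ (ψ : G K' → ℂ) (C : EigData K'), IsEigFn U.𝔑₀ U.R'.r ℓ U.o ψ C →
          IsEigFn U.𝔑₀ U.R'.r ℓ U.o (cosetOp Hg ψ) C) ∧
        ∀ (Hs : ℕ → Finset (G K')) (ω : ℕ → G K'), IsIwSys561 U Hs ω →
          ∀ (j : ℕ) (ψ : G K' → ℂ), IsWFn U.𝔑₀ U.R'.r ℓ U.o ψ → ∀ x : G K',
            cosetOp Hg (cosetOp (Hs j) ψ) x = cosetOp (Hs j) (cosetOp Hg ψ) x ∧
            cosetOp Hg (H561.trOp561 (ω j) ψ) x = H561.trOp561 (ω j) (cosetOp Hg ψ) x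

variable {K'}

/-- **THE TOP OF THE NODE T7.L2.2.B4.** -/
theorem opsC_of561 (hX : IwSysExistsC561 K') (hE : OpsEigC561 K') (hR : OpsRelC561 K')
    (hM : OpsCommC561 K') (hP : OpsPerC561 K') (hA : OpsAdjC561 K')
    (hS : OpsSigC561 K') (hL : OpsLinkC561 K') (hB : BadOpC561 K') : OpsC561 K' := by
  intro ℓ hℓ hcplx Φ hΦ U hU hst g hg
  have hs : IsSetup561 ℓ Φ U := ⟨hℓ, hcplx, hΦ, hU⟩
  obtain ⟨Hs, ω, hsys⟩ := hX ℓ Φ U hs
  obtain ⟨Hg, hdbl, hBe, hBc⟩ := hB ℓ Φ U hs g hg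
  refine ⟨Hs, ω, Hg, ?_⟩
  exact
    { S_eig := fun j ψ C h => (hE ℓ Φ U hs Hs ω hsys j ψ C h).1
      ρ_eig := fun j ψ C h => (hE ℓ Φ U hs Hs ω hsys j ψ C h).2
      B_eig := hBe
      S_quad := fun j ψ h x => (hR ℓ Φ U hs Hs ω hsys j ψ h x).1
      ρ_central := fun j ψ h x => (hR ℓ Φ U hs Hs ω hsys j ψ h x).2
      comm_SS := fun j j' h1 h2 h3 ψ _ x => (hM ℓ Φ U hs Hs ω hsys j j' h1 h2 h3 ψ x).1
      comm_Sρ := fun j j' h1 h2 h3 ψ _ x => (hM ℓ Φ U hs Hs ω hsys j j' h1 h2 h3 ψ x).2.1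
      comm_ρρ := fun j j' h1 h2 h3 ψ _ x => (hM ℓ Φ U hs Hs ω hsys j j' h1 h2 h3 ψ x).2.2
      per_S := fun j ψ h x => (hP ℓ Φ U hs Hs ω hsys j ψ h x).1
      per_ρ := fun j ψ h x => (hP ℓ Φ U hs Hs ω hsys j ψ h x).2
      B_S := fun j ψ h x => (hBc Hs ω hsys j ψ h x).1
      B_ρ := fun j ψ h x => (hBc Hs ω hsys j ψ h x).2
      S_adj := fun j ψ χ h1 h2 => (hA ℓ Φ U hs Hs ω hsys j ψ χ h1 h2).1
      ρ_iso := fun j ψ χ h1 h2 => (hA ℓ Φ U hs Hs ω hsys j ψ χ h1 h2).2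
      σ_S := fun j ψ h x => (hS ℓ Φ U hs hst Hs ω hsys j ψ h x).1
      σ_ρ := fun j ψ h x => (hS ℓ Φ U hs hst Hs ω hsys j ψ h x).2
      dbl := hdbl
      iwsys := (hL ℓ Φ U hs Hs ω hsys).1
      unif := (hL ℓ Φ U hs Hs ω hsys).2 }

end Ops

/-! ## Bridges: every core leaf implies the leaf of helper561 (cyclic step) -/

section Bridges

variable {K K' : Type} [Field K] [NumberField K] [Field K'] [NumberField K'] [Algebra K K']

theorem isSetup_to_core {ℓ : ℕ} {Φ : HeckeEigensystem K' ℂ} {Dt : L2Data K K'}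
    (h : H561.IsSetup561 ℓ Φ Dt) : IsSetup561 ℓ Φ (H29.upOf Dt) where
  prime := h.cyc.prime
  cplx := H29.totCplx_of_base h.cplx
  cusp := h.cusp
  data := H29.isUpData_upOf h.data

theorem isIwSys_of_core {Dt : L2Data K K'} {Hs : ℕ → Finset (G K')} {ω : ℕ → G K'}
    (h : IsIwSys561 (H29.upOf Dt) Hs ω) : H561.IsIwSys561 Dt Hs ω where
  ω_local := h.ω_local
  ω_comp := h.ω_comp
  Hs_card := h.Hs_card
  Hs_local := h.Hs_local
  Hs_comp := h.Hs_comp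
  Hs_inj := h.Hs_inj

theorem isIwSys_to_core {Dt : L2Data K K'} {Hs : ℕ → Finset (G K')} {ω : ℕ → G K'}
    (h : H561.IsIwSys561 Dt Hs ω) : IsIwSys561 (H29.upOf Dt) Hs ω where
  ω_local := h.ω_local
  ω_comp := h.ω_comp
  Hs_card := h.Hs_card
  Hs_local := h.Hs_local
  Hs_comp := h.Hs_comp
  Hs_inj := h.Hs_inj

theorem iwSysExistsC_of_core (hC : IwSysExistsC561 K') : H561.IwSysExistsC561 K K' := by
  intro ℓ Φ Dt hs
  obtain ⟨Hs, ω, h⟩ := hC ℓ Φ (H29.upOf Dt) (isSetup_to_core hs)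
  exact ⟨Hs, ω, isIwSys_of_core h⟩

theorem opsEigC_of_core (hC : OpsEigC561 K') : H561.OpsEigC561 K K' :=
  fun ℓ Φ Dt hs Hs ω hsys => hC ℓ Φ (H29.upOf Dt) (isSetup_to_core hs) Hs ω (isIwSys_to_core hsys)

theorem opsRelC_of_core (hC : OpsRelC561 K') : H561.OpsRelC561 K K' :=
  fun ℓ Φ Dt hs Hs ω hsys => hC ℓ Φ (H29.upOf Dt) (isSetup_to_core hs) Hs ω (isIwSys_to_core hsys)

theorem opsCommC_of_core (hC : OpsCommC561 K') : H561.OpsCommC561 K K' :=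
  fun ℓ Φ Dt hs Hs ω hsys => hC ℓ Φ (H29.upOf Dt) (isSetup_to_core hs) Hs ω (isIwSys_to_core hsys)

theorem opsPerC_of_core (hC : OpsPerC561 K') : H561.OpsPerC561 K K' :=
  fun ℓ Φ Dt hs Hs ω hsys => hC ℓ Φ (H29.upOf Dt) (isSetup_to_core hs) Hs ω (isIwSys_to_core hsys)

theorem opsAdjC_of_core (hC : OpsAdjC561 K') : H561.OpsAdjC561 K K' :=
  fun ℓ Φ Dt hs Hs ω hsys => hC ℓ Φ (H29.upOf Dt) (isSetup_to_core hs) Hs ω (isIwSys_to_core hsys)

theorem opsSigC_of_core (hC : OpsSigC561 K') : H561.OpsSigC561 K K' :=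
  fun ℓ Φ Dt hs hst Hs ω hsys =>
    hC ℓ Φ (H29.upOf Dt) (isSetup_to_core hs) hst Hs ω (isIwSys_to_core hsys)

theorem opsLinkC_of_core (hC : OpsLinkC561 K') : H561.OpsLinkC561 K K' :=
  fun ℓ Φ Dt hs Hs ω hsys => hC ℓ Φ (H29.upOf Dt) (isSetup_to_core hs) Hs ω (isIwSys_to_core hsys)

theorem badOpC_of_core (hC : BadOpC561 K') : H561.BadOpC561 K K' := by
  intro ℓ Φ Dt hs g hg
  obtain ⟨Hg, hdbl, hB, hcomm⟩ := hC ℓ Φ (H29.upOf Dt) (isSetup_to_core hs) g hg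
  exact ⟨Hg, hdbl, hB, fun Hs ω hsys => hcomm Hs ω (isIwSys_to_core hsys)⟩

end Bridges

/-! ## Appendix: the equation lemmas of the definitions of this file are realised HERE -/

theorem eqns_realised_coreOps736 : True := by
  have _a1 := @IwSysExistsC561.eq_1
  have _a2 := @IwSysExistsC561.eq_def
  have _a3 := @IwSysExistsC561.eq_unfold
  have _b1 := @OpsEigC561.eq_1
  have _b2 := @OpsEigC561.eq_def
  have _b3 := @OpsEigC561.eq_unfold
  have _c1 := @OpsRelC561.eq_1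
  have _c2 := @OpsRelC561.eq_def
  have _c3 := @OpsRelC561.eq_unfold
  have _d1 := @OpsCommC561.eq_1
  have _d2 := @OpsCommC561.eq_def
  have _d3 := @OpsCommC561.eq_unfold
  have _e1 := @OpsPerC561.eq_1
  have _e2 := @OpsPerC561.eq_def
  have _e3 := @OpsPerC561.eq_unfold
  have _f1 := @OpsAdjC561.eq_1
  have _f2 := @OpsAdjC561.eq_def
  have _f3 := @OpsAdjC561.eq_unfold
  have _g1 := @OpsSigC561.eq_1
  have _g2 := @OpsSigC561.eq_def
  have _g3 := @OpsSigC561.eq_unfold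
  have _h1 := @OpsLinkC561.eq_1
  have _h2 := @OpsLinkC561.eq_def
  have _h3 := @OpsLinkC561.eq_unfold
  have _i1 := @BadOpC561.eq_1
  have _i2 := @BadOpC561.eq_def
  have _i3 := @BadOpC561.eq_unfold
  trivial

end Fermat.Agent.LT.T7.CU736

end
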