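import Fermat.Agent.LT.T7.H736.Core.UpBasis
import Fermat.Agent.LT.T7.H736.Core.Ops
import Fermat.Agent.LT.T7.H736.Core.ClassModel

/-!
# Row LT, tower T7, node T7.L2.2 `SpecUpC` (helper736, owner of record): THE WHOLE NODE FROM THE
# LEAVES IN CORE FORM — cyclic step AND step `F / ℚ`

OFF-MAIN.  PROVED tops.  No hole, nothing assumed.  ADDITIVE.

`SpecUpLeaves K'` = the list of the leaves of the node, ALL over `K'` alone (on `H29.UpData`):

* CLOSED (over `K'` alone from the start): `stf` (tower T5: `(T5.tower_closed …).stf`), `change`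
  (`H561.ChangeC561`: helper362 / helper44), `atoms` (`H561.AtomsC561`: helper719 / 176 / 899),
  `iwsys` (`H865.IwSysUp865` = `SD534.IwSysC`);
* the cut of `BlocksC561` (helper561), core form (`Core/Blocks.lean`): `blocksAsm`, `wSpec`,
  `complete`, `sigma`, `phi`, `offW`;
* the cut of `OpsC561` (helper561), core form (`Core/Ops.lean`): `iwSysExists`, `opsEig`,
  `opsRel`, `opsComm`, `opsPer`, `opsAdj`, `opsSig`, `opsLink`, `badOp`;
* the cut of `ClassModelC` (helper616), core form (`Core/ClassModel.lean`): `finDim`, `nontriv`,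
  `stabG`, `stabS`, `commGI`, `locComm`, `locMove`, `pow`, `simple`, `mulG`, `dict`.

    specUpCoreSC_of_leaves : SpecUpLeaves K' → H29.SpecUpCoreSC K'
    specUpSC_of_leaves     : SU736.StableAutC K K' → SpecUpLeaves K' → T7.SpecUpSC K K'
                                                   (cyclic step: THE NODE OF RECORD, `Level2S`)
    specUpQSC_of_leaves    : SpecUpLeaves F → H29.SpecUpQSC F
                                                   (step `F / ℚ`: the node of `H29.UpCore2`)
-/

set_option autoImplicit false

open AutomorphicForm IsDedekindDomain NumberField MeasureTheory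

noncomputable section

namespace Fermat.Agent.LT.T7.CU736

open Fermat.Agent.LT.H556 Fermat.Agent.LT.H556.A0 Fermat.Agent.LT.T7

/-- **THE LEAVES OF THE NODE `SpecUpC`, in core form.**  See the header. -/
structure SpecUpLeaves (K' : Type) [Field K'] [NumberField K'] : Prop where
  stf : SU736.StfUC K'
  change : H561.ChangeC561 K'
  atoms : H561.AtomsC561
  iwsys : H865.IwSysUp865 K'
  blocksAsm : BlocksAsmC561 K'
  wSpec : WSpecC561 K'
  complete : CompleteC561 K'
  sigma : SigmaC561 K'
  phi : PhiC561 K'
  offW : OffWC561 K'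
  iwSysExists : IwSysExistsC561 K'
  opsEig : OpsEigC561 K'
  opsRel : OpsRelC561 K'
  opsComm : OpsCommC561 K'
  opsPer : OpsPerC561 K'
  opsAdj : OpsAdjC561 K'
  opsSig : OpsSigC561 K'
  opsLink : OpsLinkC561 K'
  badOp : BadOpC561 K'
  finDim : FinDimC616 K'
  nontriv : NontrivC616 K'
  stabG : StabGC616 K'
  stabS : StabSC616 K'
  commGI : CommGIC616 K'
  locComm : LocCommC616 K'
  locMove : LocMoveC616 K'
  pow : PowC616 K'
  simple : SimpleC616 K'
  mulG : MulGC616 K'
  dict : DictC616 K'

section Tops

variable {K' : Type} [Field K'] [NumberField K']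

/-- The node `OpsC561`, core form, from the leaves. -/
theorem opsC_of_leaves (h : SpecUpLeaves K') : OpsC561 K' :=
  opsC_of561 h.iwSysExists h.opsEig h.opsRel h.opsComm h.opsPer h.opsAdj h.opsSig h.opsLink
    h.badOp

/-- The node `BlocksC561`, core form, from the leaves. -/
theorem blocksC_of_leaves (h : SpecUpLeaves K') : BlocksC561 K' :=
  blocksC_of561 h.blocksAsm h.wSpec h.complete h.sigma (opsC_of_leaves h) h.phi h.offW

/-- The core node `H29.ExpUpCoreC` from the leaves. -/
theorem expUpCoreC_of_leaves (h : SpecUpLeaves K') : H29.ExpUpCoreC K' :=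
  expUpCoreC_of_blocks h.stf (blocksC_of_leaves h) h.change h.atoms h.sigma h.iwsys

/-- The core node `H29.NonVanCoreC` from the leaves. -/
theorem nonVanCoreC_of_leaves' (h : SpecUpLeaves K') : H29.NonVanCoreC K' :=
  nonVanCoreC_of_leaves h.finDim h.nontriv h.stabG h.stabS h.commGI h.locComm h.locMove h.pow
    h.simple h.mulG h.dict

/-- **SPEC-UP, core form, from the leaves.** -/
theorem specUpCoreSC_of_leaves (h : SpecUpLeaves K') : H29.SpecUpCoreSC K' :=
  H29.specUpCoreSC_of (expUpCoreC_of_leaves h) (nonVanCoreC_of_leaves' h)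

/-- **THE STEP `F / ℚ`**: the upstairs node of the quadratic step from the leaves. -/
theorem specUpQSC_of_leaves (h : SpecUpLeaves K') : H29.SpecUpQSC K' :=
  H29.specUpQSC_of_core (specUpCoreSC_of_leaves h)

end Tops

section Cyclic

variable {K K' : Type} [Field K] [NumberField K] [Field K'] [NumberField K'] [Algebra K K']

/-- **THE CYCLIC STEP**: the node of record `T7.SpecUpSC` (`T7/Level2S.lean`) from the leaves in
core form and the leaf `StableAutC` (a base level extended from `K` is `σ`-stable). -/
theorem specUpSC_of_leaves (hA : SU736.StableAutC K K') (h : SpecUpLeaves K') :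
    T7.SpecUpSC K K' :=
  SU736.specUpSC_of736 hA (H29.specUpCS_of_core (specUpCoreSC_of_leaves h))

end Cyclic

end Fermat.Agent.LT.T7.CU736

end
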