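import Fermat.Agent.LT.T7.H29.UpCore
import Fermat.Agent.LT.T7.H561.BlocksSpec

/-!
# Row LT, tower T7, node T7.L2.2 `SpecUpC`: THE CUT OF `BlocksC561` IN CORE FORM (over `K'` alone)

OFF-MAIN.  Definitions, frozen Props, PROVED top and PROVED bridges.  No hole, nothing assumed.
ADDITIVE (new names only: namespace `Fermat.Agent.LT.T7.CU736`).

MECHANICAL RETYPING (helper736, owner of record of `SpecUpC`; ruling of helper797 #17842 (1)) of
the cut of helper561, `T7/H561/SpecUpSpec.lean` (383e6674, section 3) and `T7/H561/BlocksSpec.lean`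
(5ceeaa4d), onto the upstairs data `H29.UpData K'` / `H29.IsUpData` of helper29
(`T7/H29/UpCore.lean`, c2d817fc).  SAME short names, SAME field names, SAME docstring proofs:

    Dt : L2Data K K'                                   ↦  U : H29.UpData K'
    IsL2Data ℓ Φ Dt                                    ↦  H29.IsUpData ℓ Φ U
    IsCycExt K K' ℓ → ℓ ≠ 2 → TotCplx K → … → ConstOnFibres K Φ →  ↦  ℓ.Prime → TotCplx K' → …
    (hDt.comp g hg).aut / .frame' / .cyc / level_ne    ↦  hU.aut g hg / hU.frame' / hU.cyc / hU.level_ne g hg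
    IsL2Data.const (places over the same place of K)   ↦  IsUpData.const (`T5.PlaceRel`)

so that ONE proof of each leaf serves the cyclic step AND the step `F / ℚ` (`ℓ = 2`).  The Props
of helper561 which are already over `K'` alone (`H561.AtomsC561`, `H561.ChangeC561`,
`H561.Blocks561`, `H561.IsIwBlock561`, `H561.trOp561`) are used as they are.

Every core leaf implies the leaf of helper561 (section "Bridges": `…_of_core`), so a leaf owner
who proves the CORE form closes both.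
-/

set_option autoImplicit false

open AutomorphicForm IsDedekindDomain NumberField MeasureTheory
open scoped ComplexConjugate Matrix

noncomputable section

namespace Fermat.Agent.LT.T7.CU736

open Fermat.Agent.LT.H556 Fermat.Agent.LT.H556.A0 Fermat.Agent.LT.T7

attribute [local instance] Fermat.Agent.LT.T5.instMeasurableSpaceG

section Blocks

variable (K' : Type) [Field K'] [NumberField K']

variable {K'}

/-- **The base level is `σ`-stable** (see the header: ruling needed). -/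
def BaseStable561 (U : H29.UpData K') : Prop :=
  ∀ u : G K', InLevelGroup U.𝔑₀ u ↔ InLevelGroup U.𝔑₀ (U.s.onG u)

/-- `v` is an orthonormal basis of the class of `C`: the invariant cusp functions of the base
level with joint eigen-data `C` outside `S'`. -/
structure IsClassBasis561 (U : H29.UpData K') (ℓ : ℕ) (C : EigData K') (n : ℕ)
    (v : Fin n → G K' → ℂ) : Prop where
  eig : ∀ a, IsEigFn U.𝔑₀ U.R'.r ℓ U.o (v a) C
  orth : ∀ a b, T5.innerD U.R'.μ U.R'.F (v a) (v b) = if a = b then 1 else 0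
  span : ∀ (ψ : G K' → ℂ) (C' : EigData K'), IsEigFn U.𝔑₀ U.R'.r ℓ U.o ψ C' →
    C'.AgreeOut U.S' C → ∃ c : Fin n → ℂ, ∀ x : G K', ψ x = ∑ a, c a * v a x

/-- The properties of the blocks for the bad element `g` in the complete orthonormal sequence
`e₀`. -/
structure IsBlocks561 (ℓ : ℕ) (Φ : HeckeEigensystem K' ℂ) (U : H29.UpData K') (g : G K')
    (e₀ : ℕ → G K' → ℂ) (𝔅 : H561.Blocks561 K') : Prop where
  onb : T5.IsCuspONB (U.𝔑 g) T5.trivType U.R'.r U.R'.μ U.R'.F e₀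
  inj : ∀ (i : 𝔅.ι) (a : Fin (𝔅.n i)) (i' : 𝔅.ι) (a' : Fin (𝔅.n i')),
    𝔅.idx i a = 𝔅.idx i' a' → (⟨i, a⟩ : Σ i, Fin (𝔅.n i)) = ⟨i', a'⟩
  unitary : ∀ i, (𝔅.C i).IsUnitaryOut U.S'
  distinct : ∀ i i', (𝔅.C i).AgreeOut U.S' (𝔅.C i') → i = i'
  basis : ∀ i, IsClassBasis561 U ℓ (𝔅.C i) (𝔅.n i) (fun a => e₀ (𝔅.idx i a))
  phi : ∃ i, (𝔅.C i).AgreeOut U.S' (eigOf Φ)
  iw : ∀ i, H561.IsIwBlock561 ℓ ((Ideal.absNorm (U.o 0).asIdeal : ℕ) : ℝ)
    (𝔅.A i) (𝔅.B i) (𝔅.S i) (𝔅.ρ i)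
  /-- the matrix coefficients inside a block -/
  coeff : ∀ X : List (Gen K'), (∀ x ∈ X, x.Out U.S') →
    ∀ (k : ℤ) (m : ℕ) (i : 𝔅.ι) (a b : Fin (𝔅.n i)),
      T5.innerD U.R'.μ U.R'.F
          (T5.Rconv U.R'.μ (U.φ' g X k m) (T5.Rsig U.s (e₀ (𝔅.idx i a))))
          (e₀ (𝔅.idx i b))
        = wordEv X (𝔅.C i)
          * (𝔅.B i * (𝔅.ρ i 0 * 𝔅.ρ i 0) ^ k
              * (((Real.sqrt ((Ideal.absNorm (U.o 0).asIdeal : ℕ) : ℝ) : ℝ) : ℂ)⁻¹
                  • (𝔅.S i 0 * 𝔅.ρ i 0)) ^ m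
              * 𝔅.A i) b a
  /-- the diagonal coefficients outside the blocks vanish -/
  off : ∀ X : List (Gen K'), (∀ x ∈ X, x.Out U.S') → ∀ (k : ℤ) (m : ℕ) (j : ℕ),
    (∀ (i : 𝔅.ι) (a : Fin (𝔅.n i)), 𝔅.idx i a ≠ j) →
    T5.diagCoeff U.s U.R'.μ U.R'.F (U.φ' g X k m) (e₀ j) = 0


variable (K')

/-- **NODE T7.L2.2.B = BLOCKS.**  See the header.
Proof (sketch; to be cut).  (1) `T2` (`cuspSpecPlus_closed`, `finite_class130`): the cusp
functions of level `𝔑₀` have an orthonormal basis of joint eigenfunctions of the Hecke operators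
outside `S'` and of the sphere means, the classes have finite dimension; the projector on the
functions invariant under the positive scalars at infinity and the Iwahori subgroups along the
orbit commutes with these operators: orthonormal bases of the classes of the INVARIANT cusp
functions, the eigen-data of a class normalised at the places of `S'` and the radii `d ≤ 0`.
(2) Complete by an orthonormal basis of the orthogonal complement in the cusp functions of level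
`𝔑_g` (PROJ-up, `T5.CuspONBExistsC`, Gram--Schmidt).  (3) `R(σ)` preserves the invariant cusp
functions of the base level (`BaseStable561`, `IsCompData.aut`, orbit) and moves the eigen-data
by `σ` (asset helper930 `T7/H930/RsigOps.lean`); the blocks are the classes with
`C ∘ σ ∼ C`; the class of `Φ` is one (`ConstOnFibres`, `orbit_good`, `level_le`).  (4) On a
block: OP-up for `ψ = R(σ) e_a`; the operators `[U g U]`, `Z`, `𝒰` preserve the classes; matrices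
in the basis of the block.  (5) Outside the blocks: KILL-up and the range of `R(φ')` (in the
invariant functions) for the complement; `R(σ) e ⊥ ` class of `e` for a class which is not
stable.  (6) Iwahori--Hecke relations at `o j`: `S_j` = the operator of `I s I`, `ρ_j` = the
translation by `!![0, 1; ϖ, 0]`, `I t I = I s I · ω`, `S² = (q-1) S + q`, `ρ²` = the scalar
uniformiser; adjoints for the inner product on the fundamental domain; `R(σ)` moves the place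
`o j` to `o (j+1)`. -/
def BlocksC561 : Prop :=
  ∀ ℓ : ℕ, ℓ.Prime → TotCplx K' →
    ∀ Φ : HeckeEigensystem K' ℂ, A0.IsCuspAdelicSph0 K' Φ →
      ∀ U : H29.UpData K', H29.IsUpData ℓ Φ U → BaseStable561 U →
      ∀ g : G K', U.IsBad g →
        ∃ (e₀ : ℕ → G K' → ℂ) (𝔅 : H561.Blocks561 K'), IsBlocks561 ℓ Φ U g e₀ 𝔅

/-- **NODE T7.L2.2.N = NON-VANISHING.**  For some bad `g` and some `(k, m)` the twisted trace of
`R(φ' g [] k m) R(σ)` on the class of `Φ` does not vanish.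
Proof (sketch).  The class `V` of `Φ` is not `0` (the form of `Φ`), stable under `R(σ)`, and a
simple module under the Hecke algebra of the places of `S'` (multiplicity one in module form:
asset helper963 `H963/Cyclic.lean` from `T2.H941.MatchC`; Burnside); by OP-up the operators
`c_g [U g U] Z^k 𝒰^m` are in the image; orbit formula + regular trace (assets helper616
`T7/H616/RegTrace.lean`, `RegTrace2.lean`, helper822 `T7/H822/TwNV.lean`, helper11
`T7/H11/TwTrace.lean`); `c_g ≠ 0` on the class of `Φ` (`base_ne`). -/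
def NonVanC561 : Prop :=
  ∀ ℓ : ℕ, ℓ.Prime → TotCplx K' →
    ∀ Φ : HeckeEigensystem K' ℂ, A0.IsCuspAdelicSph0 K' Φ →
      ∀ U : H29.UpData K', H29.IsUpData ℓ Φ U → BaseStable561 U →
      ∃ (g : G K') (k : ℤ) (m : ℕ), U.IsBad g ∧
        ∀ (C : EigData K') (n : ℕ) (v : Fin n → G K' → ℂ),
          C.AgreeOut U.S' (eigOf Φ) → IsClassBasis561 U ℓ C n v →
          (∑ a, T5.innerD U.R'.μ U.R'.F
              (T5.Rconv U.R'.μ (U.φ' g [] k m) (T5.Rsig U.s (v a))) (v a)) ≠ 0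


end Blocks

section BlocksCut

variable {K' : Type} [Field K'] [NumberField K']

/-- **The spectrum of the invariant cusp functions of the base level**: classes `i : ι` with
eigen-data `C i` and orthonormal bases `v i`. -/
structure IsWSpec561 (U : H29.UpData K') (ℓ : ℕ) (ι : Type) (n : ι → ℕ) (C : ι → EigData K')
    (v : (i : ι) → Fin (n i) → G K' → ℂ) : Prop where
  countable : Countable ι
  unitary : ∀ i, (C i).IsUnitaryOut U.S'
  distinct : ∀ i i', (C i).AgreeOut U.S' (C i') → i = i'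
  basis : ∀ i, IsClassBasis561 U ℓ (C i) (n i) (v i)
  orth : ∀ (i i' : ι) (a : Fin (n i)) (a' : Fin (n i')), i ≠ i' →
    T5.innerD U.R'.μ U.R'.F (v i a) (v i' a') = 0
  complete : ∀ ψ : G K' → ℂ, IsWFn U.𝔑₀ U.R'.r ℓ U.o ψ →
    HasSum (fun p : Σ i, Fin (n i) => ‖T5.innerD U.R'.μ U.R'.F ψ (v p.1 p.2)‖ ^ 2)
      (T5.innerD U.R'.μ U.R'.F ψ ψ).re
  cover : ∀ (ψ : G K' → ℂ) (C' : EigData K'), IsEigFn U.𝔑₀ U.R'.r ℓ U.o ψ C' →
    (∃ x : G K', ψ x ≠ 0) → ∃ i, C'.AgreeOut U.S' (C i)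

/-- **The operators on the invariant cusp functions of the base level**: `S_j = cosetOp (Hs j)`,
`ρ_j = H561.trOp561 (ω j)` along the orbit, `B = cosetOp Hg` at the bad places. -/
structure IsWOps561 (U : H29.UpData K') (ℓ : ℕ) (g : G K') (Hs : ℕ → Finset (G K'))
    (ω : ℕ → G K') (Hg : Finset (G K')) : Prop where
  S_eig : ∀ (j : ℕ) (ψ : G K' → ℂ) (C : EigData K'), IsEigFn U.𝔑₀ U.R'.r ℓ U.o ψ C →
    IsEigFn U.𝔑₀ U.R'.r ℓ U.o (cosetOp (Hs j) ψ) C
  ρ_eig : ∀ (j : ℕ) (ψ : G K' → ℂ) (C : EigData K'), IsEigFn U.𝔑₀ U.R'.r ℓ U.o ψ C →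
    IsEigFn U.𝔑₀ U.R'.r ℓ U.o (H561.trOp561 (ω j) ψ) C
  B_eig : ∀ (ψ : G K' → ℂ) (C : EigData K'), IsEigFn U.𝔑₀ U.R'.r ℓ U.o ψ C →
    IsEigFn U.𝔑₀ U.R'.r ℓ U.o (cosetOp Hg ψ) C
  S_quad : ∀ (j : ℕ) (ψ : G K' → ℂ), IsWFn U.𝔑₀ U.R'.r ℓ U.o ψ → ∀ x : G K',
    cosetOp (Hs j) (cosetOp (Hs j) ψ) x
      = (((Ideal.absNorm (U.o 0).asIdeal : ℕ) : ℂ) - 1) * cosetOp (Hs j) ψ x
        + ((Ideal.absNorm (U.o 0).asIdeal : ℕ) : ℂ) * ψ x
  ρ_central : ∀ (j : ℕ) (ψ : G K' → ℂ), IsWFn U.𝔑₀ U.R'.r ℓ U.o ψ → ∀ x : G K',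
    H561.trOp561 (ω j) (H561.trOp561 (ω j) (cosetOp (Hs j) ψ)) x
      = cosetOp (Hs j) (H561.trOp561 (ω j) (H561.trOp561 (ω j) ψ)) x
  comm_SS : ∀ j j' : ℕ, j < ℓ → j' < ℓ → j ≠ j' →
    ∀ ψ : G K' → ℂ, IsWFn U.𝔑₀ U.R'.r ℓ U.o ψ → ∀ x : G K',
      cosetOp (Hs j) (cosetOp (Hs j') ψ) x = cosetOp (Hs j') (cosetOp (Hs j) ψ) x
  comm_Sρ : ∀ j j' : ℕ, j < ℓ → j' < ℓ → j ≠ j' →
    ∀ ψ : G K' → ℂ, IsWFn U.𝔑₀ U.R'.r ℓ U.o ψ → ∀ x : G K',
      cosetOp (Hs j) (H561.trOp561 (ω j') ψ) x = H561.trOp561 (ω j') (cosetOp (Hs j) ψ) x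
  comm_ρρ : ∀ j j' : ℕ, j < ℓ → j' < ℓ → j ≠ j' →
    ∀ ψ : G K' → ℂ, IsWFn U.𝔑₀ U.R'.r ℓ U.o ψ → ∀ x : G K',
      H561.trOp561 (ω j) (H561.trOp561 (ω j') ψ) x = H561.trOp561 (ω j') (H561.trOp561 (ω j) ψ) x
  per_S : ∀ (j : ℕ) (ψ : G K' → ℂ), IsWFn U.𝔑₀ U.R'.r ℓ U.o ψ → ∀ x : G K',
    cosetOp (Hs (j + ℓ)) ψ x = cosetOp (Hs j) ψ x
  per_ρ : ∀ (j : ℕ) (ψ : G K' → ℂ), IsWFn U.𝔑₀ U.R'.r ℓ U.o ψ → ∀ x : G K',
    H561.trOp561 (ω (j + ℓ)) ψ x = H561.trOp561 (ω j) ψ x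
  B_S : ∀ (j : ℕ) (ψ : G K' → ℂ), IsWFn U.𝔑₀ U.R'.r ℓ U.o ψ → ∀ x : G K',
    cosetOp Hg (cosetOp (Hs j) ψ) x = cosetOp (Hs j) (cosetOp Hg ψ) x
  B_ρ : ∀ (j : ℕ) (ψ : G K' → ℂ), IsWFn U.𝔑₀ U.R'.r ℓ U.o ψ → ∀ x : G K',
    cosetOp Hg (H561.trOp561 (ω j) ψ) x = H561.trOp561 (ω j) (cosetOp Hg ψ) x
  S_adj : ∀ (j : ℕ) (ψ χ : G K' → ℂ), IsWFn U.𝔑₀ U.R'.r ℓ U.o ψ →
    IsWFn U.𝔑₀ U.R'.r ℓ U.o χ →
    T5.innerD U.R'.μ U.R'.F (cosetOp (Hs j) ψ) χ
      = T5.innerD U.R'.μ U.R'.F ψ (cosetOp (Hs j) χ)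
  ρ_iso : ∀ (j : ℕ) (ψ χ : G K' → ℂ), IsWFn U.𝔑₀ U.R'.r ℓ U.o ψ →
    IsWFn U.𝔑₀ U.R'.r ℓ U.o χ →
    T5.innerD U.R'.μ U.R'.F (H561.trOp561 (ω j) ψ) (H561.trOp561 (ω j) χ)
      = T5.innerD U.R'.μ U.R'.F ψ χ
  σ_S : ∀ (j : ℕ) (ψ : G K' → ℂ), IsWFn U.𝔑₀ U.R'.r ℓ U.o ψ → ∀ x : G K',
    T5.Rsig U.s (cosetOp (Hs j) ψ) x = cosetOp (Hs (j + 1)) (T5.Rsig U.s ψ) x
  σ_ρ : ∀ (j : ℕ) (ψ : G K' → ℂ), IsWFn U.𝔑₀ U.R'.r ℓ U.o ψ → ∀ x : G K',
    T5.Rsig U.s (H561.trOp561 (ω j) ψ) x = H561.trOp561 (ω (j + 1)) (T5.Rsig U.s ψ) x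
  dbl : IsDblCosetSystem U.𝔑₀ g Hg
  iwsys : IsIwCosetSystem (U.o 0) ((Hs 0).map (mulRightEmbedding (ω 0)))
  unif : IsScalarUniformizerAt (U.o 0) (ω 0 * ω 0)

variable (K')

/-- **LEAF T7.L2.2.B1 = W-SPEC.**
Proof.  `T2.cuspSpecPlus_closed` for the level `𝔑₀` (`𝔑₀ ≠ ⊥`: `level_g` and
`IsCompData.level_ne` for the bad element `1`): an orthonormal complete family of joint
eigenfunctions of EVERY operator of the tower (Hecke operators outside `S'`, sphere means), with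
unitary eigen-data; classes of finite dimension (`finite_class130`).  The projector on the
Iwahori invariants along the orbit (a finite average of right translations, `I / U` is finite)
is self-adjoint, commutes with the operators and maps the class of `C` onto the functions of
`W` in the class; Gram--Schmidt in each class; eigen-data normalised (`0` at the places of `S'`
and the radii `d ≤ 0`) to get `distinct`. -/
def WSpecC561 : Prop :=
  ∀ ℓ : ℕ, ℓ.Prime → TotCplx K' →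
    ∀ Φ : HeckeEigensystem K' ℂ, A0.IsCuspAdelicSph0 K' Φ →
      ∀ U : H29.UpData K', H29.IsUpData ℓ Φ U →
        ∃ (ι : Type) (n : ι → ℕ) (C : ι → EigData K') (v : (i : ι) → Fin (n i) → G K' → ℂ),
          IsWSpec561 U ℓ ι n C v

/-- **LEAF T7.L2.2.B2 = COMPLETE.**
Proof.  `W` consists of cusp functions of level `𝔑_g` (`level_g`).  Take a complete orthonormal
sequence `f_k` of level `𝔑_g` (`T5.CuspONBExistsC`, closed in tower T5 / T2), `h_k` =
Gram--Schmidt of `f_k - P f_k` (`P` = PROJ-up); `e₀` = the family `v` (enumerated by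
countability) interleaved with `h_k`; Parseval: `‖f‖² = ‖P f‖² + ‖f - P f‖²`. -/
def CompleteC561 : Prop :=
  ∀ ℓ : ℕ, ℓ.Prime → TotCplx K' →
    ∀ Φ : HeckeEigensystem K' ℂ, A0.IsCuspAdelicSph0 K' Φ →
      ∀ U : H29.UpData K', H29.IsUpData ℓ Φ U → ∀ g : G K', U.IsBad g →
      ∀ (ι : Type) (n : ι → ℕ) (C : ι → EigData K') (v : (i : ι) → Fin (n i) → G K' → ℂ),
        IsWSpec561 U ℓ ι n C v →
        ∃ (e₀ : ℕ → G K' → ℂ) (idx : (i : ι) → Fin (n i) → ℕ),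
          T5.IsCuspONB (U.𝔑 g) T5.trivType U.R'.r U.R'.μ U.R'.F e₀ ∧
          (∀ (i : ι) (a : Fin (n i)) (i' : ι) (a' : Fin (n i')), idx i a = idx i' a' →
            (⟨i, a⟩ : Σ i, Fin (n i)) = ⟨i', a'⟩) ∧
          (∀ (i : ι) (a : Fin (n i)), e₀ (idx i a) = v i a) ∧
          ∀ j : ℕ, (∀ (i : ι) (a : Fin (n i)), idx i a ≠ j) →
            ∀ χ : G K' → ℂ, IsWFn U.𝔑₀ U.R'.r ℓ U.o χ →
              T5.innerD U.R'.μ U.R'.F (e₀ j) χ = 0

/-- **LEAF T7.L2.2.B3 = SIGMA.**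
Proof.  `R(σ)` preserves the cusp functions of the base level (`BaseStable561`,
`IsCompData.aut` for the bad element `1`), the invariance under the positive scalars at
infinity and under the Iwahori subgroups along the orbit (`orbit_rel`, `σ^ℓ = 1`); it moves the
Hecke operators at `w ∉ S'` to those at `σ w ∉ S'` (`mem_S'_g`: `S'` = the places over the
divisors of `𝔫 g`) and the sphere means at `w` to those at `σ w`: `σC C` = the eigen-data moved
by `σ` (asset helper930 `T7/H930/RsigOps.lean`).  The class of `Φ`: `IsL2Data.const`, and `sph0`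
at every infinite place. -/
def SigmaC561 : Prop :=
  ∀ ℓ : ℕ, ℓ.Prime → TotCplx K' →
    ∀ Φ : HeckeEigensystem K' ℂ, A0.IsCuspAdelicSph0 K' Φ →
      ∀ U : H29.UpData K', H29.IsUpData ℓ Φ U → BaseStable561 U →
        ∃ σC : EigData K' → EigData K',
          (∀ C C' : EigData K', C.AgreeOut U.S' C' → (σC C).AgreeOut U.S' (σC C')) ∧
          (∀ (ψ : G K' → ℂ) (C : EigData K'), IsEigFn U.𝔑₀ U.R'.r ℓ U.o ψ C →
            IsEigFn U.𝔑₀ U.R'.r ℓ U.o (T5.Rsig U.s ψ) (σC C)) ∧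
          (σC (eigOf Φ)).AgreeOut U.S' (eigOf Φ)

/-- **NODE T7.L2.2.B4 = OPS.**  See the header and `IsWOps561`.
Proof (sketch; to be cut: local group theory at `o j` + operators on functions).  At the place
`w = o j` with uniformiser `ϖ`: `I` = the Iwahori subgroup (`T5.InIwahori`), `s = !![0,1;1,0]`,
`ω = !![0,1;ϖ,0]`, `t = !![ϖ,0;0,1] = s ω`, `ω I ω⁻¹ = I`, `ω² = ϖ`,
`I s I = ⨆_{a mod ϖ} !![1,a;0,1] s I` (`q` cosets), `I t I = (I s I) ω`,
`(I s I)(I s I) = I ⊔ I s I` with `1_{IsI} ⋆ 1_{IsI} = (q-1) 1_{IsI} + q 1_I`.  The operators are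
finite sums of right translations by elements supported at ONE place of `S'`: they preserve the
cusp functions, commute with the Hecke operators outside `S'`, the sphere means and the
operators at the other places; adjoints: `∫_F ψ(x h) conj χ(x) = ∫_F ψ(x) conj χ(x h⁻¹)` for
automorphic functions (fundamental domain, ray; T2 `OpsAdjT`), `(I s I)⁻¹ = I s I`; `R(σ) R(h)
= R(σ h) R(σ)` and `σ` maps the Iwahori subgroup at `o j` onto the one at `o (j+1)`. -/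
def OpsC561 : Prop :=
  ∀ ℓ : ℕ, ℓ.Prime → TotCplx K' →
    ∀ Φ : HeckeEigensystem K' ℂ, A0.IsCuspAdelicSph0 K' Φ →
      ∀ U : H29.UpData K', H29.IsUpData ℓ Φ U → BaseStable561 U → ∀ g : G K', U.IsBad g →
        ∃ (Hs : ℕ → Finset (G K')) (ω : ℕ → G K') (Hg : Finset (G K')),
          IsWOps561 U ℓ g Hs ω Hg

/-- **LEAF T7.L2.2.B5 = PHI.**
Proof.  The form `φ` of `Φ` (`A0.IsSph0CuspFormFor`): of level `Φ.level ⊇ 𝔑₀` (`level_le`),
invariant under `GL₂(𝒪_w)` at the places of the orbit (`orbit_good`), in particular under the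
Iwahori subgroups; invariant under the ray generator (a product of positive scalars at the
infinite places); `MeanValueComplex` = `MeanEig · sph0` (`K'` is totally complex); Hecke
eigenfunction at `v ∤ 𝔑₀` (then `v ∤ Φ.level`). -/
def PhiC561 : Prop :=
  ∀ ℓ : ℕ, ℓ.Prime → TotCplx K' →
    ∀ Φ : HeckeEigensystem K' ℂ, A0.IsCuspAdelicSph0 K' Φ →
      ∀ U : H29.UpData K', H29.IsUpData ℓ Φ U →
        ∃ ψ : G K' → ℂ, IsEigFn U.𝔑₀ U.R'.r ℓ U.o ψ (eigOf Φ) ∧ ∃ x : G K', ψ x ≠ 0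

/-- **LEAF T7.L2.2.B6 = OFF-W.**  If `R(φ' g X k m)` maps the eigenfunctions of `W` into `W`, the
diagonal coefficient of a cusp function of level `𝔑_g` orthogonal to `W` vanishes.
Proof.  `f = R(σ) e` is a cusp function of level `𝔑_g` (`IsCompData.aut`); `f = f₁ + f₂`,
`f₁ ∈ W`, `f₂ ⊥ W` (PROJ-up); `R(φ') f₂ = 0` (KILL-up); `⟨R(φ') f₁, e⟩ = ⟨f₁, R(φ'*) e⟩`
(adjoint of a convolution operator, T2 `OpsAdjT`) `= ∑_p ⟨f₁, v_p⟩ conj ⟨R(φ'*) e, v_p⟩`
(Parseval in `W`, polarised; `R(φ'*) e` is a cusp function, its component orthogonal to `W`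
does not contribute) and `⟨R(φ'*) e, v_p⟩ = ⟨e, R(φ') v_p⟩ = 0`. -/
def OffWC561 : Prop :=
  ∀ ℓ : ℕ, ℓ.Prime → TotCplx K' →
    ∀ Φ : HeckeEigensystem K' ℂ, A0.IsCuspAdelicSph0 K' Φ →
      ∀ U : H29.UpData K', H29.IsUpData ℓ Φ U → ∀ g : G K', U.IsBad g →
      ∀ (ι : Type) (n : ι → ℕ) (C : ι → EigData K') (v : (i : ι) → Fin (n i) → G K' → ℂ),
        IsWSpec561 U ℓ ι n C v →
        (∀ X : List (Gen K'), (∀ x ∈ X, x.Out U.S') → ∀ (k : ℤ) (m : ℕ) (ψ : G K' → ℂ)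
          (C' : EigData K'), IsEigFn U.𝔑₀ U.R'.r ℓ U.o ψ C' →
            IsWFn U.𝔑₀ U.R'.r ℓ U.o (T5.Rconv U.R'.μ (U.φ' g X k m) ψ)) →
        ∀ e : G K' → ℂ, T5.IsCuspFn (U.𝔑 g) T5.trivType U.R'.r e →
          (∀ χ : G K' → ℂ, IsWFn U.𝔑₀ U.R'.r ℓ U.o χ →
            T5.innerD U.R'.μ U.R'.F e χ = 0) →
          ∀ X : List (Gen K'), (∀ x ∈ X, x.Out U.S') → ∀ (k : ℤ) (m : ℕ),
            T5.diagCoeff U.s U.R'.μ U.R'.F (U.φ' g X k m) e = 0

/-- **LEAF T7.L2.2.B7 = BLOCKS-ASSEMBLY.**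
Proof.  `ι, n, C, v` from `WSpecC561`; `e₀, idx` from `CompleteC561`; `σC` from `SigmaC561`;
`Hs, ω, Hg` from `OpsC561`.  Blocks: `ι' = {i // (σC (C i)).AgreeOut S' (C i)}`.  In a block
every operator `T` among `R(σ)`, `S_j`, `ρ_j`, `B` maps the class into itself (an eigenfunction
for `C'` is one for every `C''` agreeing with `C'` outside `S'`: `mem_S'`, radii `d > 0`), so
`T v_a = ∑_b M_T(b,a) v_b` pointwise with `M_T(b,a) = ⟨T v_a, v_b⟩` (`span`, `orth`, additivity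
of the inner product on bounded continuous functions); `M_{T T'} = M_T M_{T'}` (the operators
are additive: finite sums of translations); `A = M_{R(σ)}`, `B = c_g(C) M_{cosetOp Hg}`,
`S j = M_{S_j}`, `ρ j = M_{ρ_j}`: `H561.IsIwBlock561` from `IsWOps561` (`S_adj` gives `Sᴴ = S`,
`ρ_iso` gives `ρᴴ ρ = 1`).  `coeff`: OP-up for `ψ = R(σ) v_a` with `H = (Hs 0) · ω 0`,
`z = ω 0 ²`: `iwOp = q^{-1/2} S₀ ρ₀`, `shiftOp z k = (ρ₀²)^k` (`k ∈ ℤ`; `ρ₀` is invertible on the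
class).  `off`: outside the range of `idx`: `OffWC561` (its hypothesis from OP-up and
`S_eig`, `ρ_eig`, `B_eig`); in a class which is not stable: `R(φ') R(σ) v_a` is an
eigenfunction for `σC (C i)`, hence `0` or in another class (`cover`, `distinct`), orthogonal
to `v_a` (`orth`).  `phi`: `PhiC561`, `cover`, `SigmaC561`. -/
def BlocksAsmC561 : Prop :=
  WSpecC561 K' → CompleteC561 K' → SigmaC561 K' → OpsC561 K' → PhiC561 K' →
    OffWC561 K' → BlocksC561 K'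

variable {K'}

/-- **THE TOP OF THE NODE T7.L2.2.B.** -/
theorem blocksC_of561 (hZ : BlocksAsmC561 K') (hW : WSpecC561 K') (hC : CompleteC561 K')
    (hS : SigmaC561 K') (hO : OpsC561 K') (hP : PhiC561 K') (hF : OffWC561 K') :
    BlocksC561 K' :=
  hZ hW hC hS hO hP hF

end BlocksCut

/-! ## Bridges: every core leaf implies the leaf of helper561 (cyclic step) -/

section Bridges

variable {K K' : Type} [Field K] [NumberField K] [Field K'] [NumberField K'] [Algebra K K']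

theorem isClassBasis_of_core {Dt : L2Data K K'} {ℓ : ℕ} {C : EigData K'} {n : ℕ}
    {v : Fin n → G K' → ℂ} (h : IsClassBasis561 (H29.upOf Dt) ℓ C n v) :
    H561.IsClassBasis561 Dt ℓ C n v where
  eig := h.eig
  orth := h.orth
  span := h.span

theorem isClassBasis_to_core {Dt : L2Data K K'} {ℓ : ℕ} {C : EigData K'} {n : ℕ}
    {v : Fin n → G K' → ℂ} (h : H561.IsClassBasis561 Dt ℓ C n v) :
    IsClassBasis561 (H29.upOf Dt) ℓ C n v where
  eig := h.eig
  orth := h.orth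
  span := h.span

theorem isBlocks_of_core {ℓ : ℕ} {Φ : HeckeEigensystem K' ℂ} {Dt : L2Data K K'} {g : G K'}
    {e₀ : ℕ → G K' → ℂ} {𝔅 : H561.Blocks561 K'}
    (h : IsBlocks561 ℓ Φ (H29.upOf Dt) g e₀ 𝔅) : H561.IsBlocks561 ℓ Φ Dt g e₀ 𝔅 where
  onb := h.onb
  inj := h.inj
  unitary := h.unitary
  distinct := h.distinct
  basis := fun i => isClassBasis_of_core (h.basis i)
  phi := h.phi
  iw := h.iw
  coeff := h.coeff
  off := h.off

theorem isWSpec_of_core {Dt : L2Data K K'} {ℓ : ℕ} {ι : Type} {n : ι → ℕ} {C : ι → EigData K'}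
    {v : (i : ι) → Fin (n i) → G K' → ℂ} (h : IsWSpec561 (H29.upOf Dt) ℓ ι n C v) :
    H561.IsWSpec561 Dt ℓ ι n C v where
  countable := h.countable
  unitary := h.unitary
  distinct := h.distinct
  basis := fun i => isClassBasis_of_core (h.basis i)
  orth := h.orth
  complete := h.complete
  cover := h.cover

theorem isWSpec_to_core {Dt : L2Data K K'} {ℓ : ℕ} {ι : Type} {n : ι → ℕ} {C : ι → EigData K'}
    {v : (i : ι) → Fin (n i) → G K' → ℂ} (h : H561.IsWSpec561 Dt ℓ ι n C v) :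
    IsWSpec561 (H29.upOf Dt) ℓ ι n C v where
  countable := h.countable
  unitary := h.unitary
  distinct := h.distinct
  basis := fun i => isClassBasis_to_core (h.basis i)
  orth := h.orth
  complete := h.complete
  cover := h.cover

theorem isWOps_of_core {Dt : L2Data K K'} {ℓ : ℕ} {g : G K'} {Hs : ℕ → Finset (G K')}
    {ω : ℕ → G K'} {Hg : Finset (G K')} (h : IsWOps561 (H29.upOf Dt) ℓ g Hs ω Hg) :
    H561.IsWOps561 Dt ℓ g Hs ω Hg where
  S_eig := h.S_eig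
  ρ_eig := h.ρ_eig
  B_eig := h.B_eig
  S_quad := h.S_quad
  ρ_central := h.ρ_central
  comm_SS := h.comm_SS
  comm_Sρ := h.comm_Sρ
  comm_ρρ := h.comm_ρρ
  per_S := h.per_S
  per_ρ := h.per_ρ
  B_S := h.B_S
  B_ρ := h.B_ρ
  S_adj := h.S_adj
  ρ_iso := h.ρ_iso
  σ_S := h.σ_S
  σ_ρ := h.σ_ρ
  dbl := h.dbl
  iwsys := h.iwsys
  unif := h.unif

theorem blocksC_of_core (hC : BlocksC561 K') : H561.BlocksC561 K K' := by
  intro ℓ hcyc _ hcplx Φ hΦ _ Dt hDt hst g hg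
  obtain ⟨e₀, 𝔅, h⟩ := hC ℓ hcyc.prime (H29.totCplx_of_base hcplx) Φ hΦ (H29.upOf Dt)
    (H29.isUpData_upOf hDt) hst g hg
  exact ⟨e₀, 𝔅, isBlocks_of_core h⟩

theorem nonVanC_of_core (hC : NonVanC561 K') : H561.NonVanC561 K K' := by
  intro ℓ hcyc _ hcplx Φ hΦ _ Dt hDt hst
  obtain ⟨g, k, m, hg, h⟩ := hC ℓ hcyc.prime (H29.totCplx_of_base hcplx) Φ hΦ (H29.upOf Dt)
    (H29.isUpData_upOf hDt) hst
  exact ⟨g, k, m, hg, fun C n v hC' hv => h C n v hC' (isClassBasis_to_core hv)⟩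

theorem wSpecC_of_core (hC : WSpecC561 K') : H561.WSpecC561 K K' := by
  intro ℓ hcyc _ hcplx Φ hΦ _ Dt hDt
  obtain ⟨ι, n, C, v, h⟩ := hC ℓ hcyc.prime (H29.totCplx_of_base hcplx) Φ hΦ (H29.upOf Dt)
    (H29.isUpData_upOf hDt)
  exact ⟨ι, n, C, v, isWSpec_of_core h⟩

theorem completeC_of_core (hC : CompleteC561 K') : H561.CompleteC561 K K' := by
  intro ℓ hcyc _ hcplx Φ hΦ _ Dt hDt g hg ι n C v hv
  exact hC ℓ hcyc.prime (H29.totCplx_of_base hcplx) Φ hΦ (H29.upOf Dt)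
    (H29.isUpData_upOf hDt) g hg ι n C v (isWSpec_to_core hv)

theorem sigmaC_of_core (hC : SigmaC561 K') : H561.SigmaC561 K K' := by
  intro ℓ hcyc _ hcplx Φ hΦ _ Dt hDt hst
  exact hC ℓ hcyc.prime (H29.totCplx_of_base hcplx) Φ hΦ (H29.upOf Dt)
    (H29.isUpData_upOf hDt) hst

theorem opsC_of_core (hC : OpsC561 K') : H561.OpsC561 K K' := by
  intro ℓ hcyc _ hcplx Φ hΦ _ Dt hDt hst g hg
  obtain ⟨Hs, ω, Hg, h⟩ := hC ℓ hcyc.prime (H29.totCplx_of_base hcplx) Φ hΦ (H29.upOf Dt)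
    (H29.isUpData_upOf hDt) hst g hg
  exact ⟨Hs, ω, Hg, isWOps_of_core h⟩

theorem phiC_of_core (hC : PhiC561 K') : H561.PhiC561 K K' := by
  intro ℓ hcyc _ hcplx Φ hΦ _ Dt hDt
  exact hC ℓ hcyc.prime (H29.totCplx_of_base hcplx) Φ hΦ (H29.upOf Dt)
    (H29.isUpData_upOf hDt)

theorem offWC_of_core (hC : OffWC561 K') : H561.OffWC561 K K' := by
  intro ℓ hcyc _ hcplx Φ hΦ _ Dt hDt g hg ι n C v hv
  exact hC ℓ hcyc.prime (H29.totCplx_of_base hcplx) Φ hΦ (H29.upOf Dt)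
    (H29.isUpData_upOf hDt) g hg ι n C v (isWSpec_to_core hv)

end Bridges

/-! ## Appendix: the equation lemmas of the definitions of this file are realised HERE -/

theorem eqns_realised_coreBlocks736 : True := by
  have _a1 := @BaseStable561.eq_1
  have _a2 := @BaseStable561.eq_def
  have _a3 := @BaseStable561.eq_unfold
  have _b1 := @BlocksC561.eq_1
  have _b2 := @BlocksC561.eq_def
  have _b3 := @BlocksC561.eq_unfold
  have _n1 := @NonVanC561.eq_1
  have _n2 := @NonVanC561.eq_def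
  have _n3 := @NonVanC561.eq_unfold
  have _w1 := @WSpecC561.eq_1
  have _w2 := @WSpecC561.eq_def
  have _w3 := @WSpecC561.eq_unfold
  have _c1 := @CompleteC561.eq_1
  have _c2 := @CompleteC561.eq_def
  have _c3 := @CompleteC561.eq_unfold
  have _s1 := @SigmaC561.eq_1
  have _s2 := @SigmaC561.eq_def
  have _s3 := @SigmaC561.eq_unfold
  have _o1 := @OpsC561.eq_1
  have _o2 := @OpsC561.eq_def
  have _o3 := @OpsC561.eq_unfold
  have _p1 := @PhiC561.eq_1
  have _p2 := @PhiC561.eq_def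
  have _p3 := @PhiC561.eq_unfold
  have _f1 := @OffWC561.eq_1
  have _f2 := @OffWC561.eq_def
  have _f3 := @OffWC561.eq_unfold
  have _z1 := @BlocksAsmC561.eq_1
  have _z2 := @BlocksAsmC561.eq_def
  have _z3 := @BlocksAsmC561.eq_unfold
  trivial

end Fermat.Agent.LT.T7.CU736

end
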